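import Mathlib

/-!
# The order lemma

If `h = c 0` and holomorphic functions `c i` on the upper half plane satisfy the recursion
`h c_{i+1} = h R(c_i) - ((n-1)/n) R(h) c_i`, `R(F) = D F' - w F D'`, then all zeros of `h` have
order divisible by `n`.
-/

set_option autoImplicit false

namespace Fermat.Agent.EisChar

open UpperHalfPlane Filter Topology Complex
open scoped Manifold

/-- Derivative of `(z - z₀)^a * g z`, multiplied by `(z - z₀)`. -/
theorem sub_mul_deriv_pow_mul {z₀ : ℂ} {a : ℕ} {C g : ℂ → ℂ} (hg : AnalyticAt ℂ g z₀)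
    (hC : ∀ᶠ z in 𝓝 z₀, C z = (z - z₀) ^ a * g z) :
    ∀ᶠ z in 𝓝 z₀, (z - z₀) * deriv C z = (z - z₀) ^ a * (a * g z + (z - z₀) * deriv g z) := by
  have h1 := hC.eventually_nhds
  filter_upwards [h1, hg.eventually_analyticAt] with z hz hgz
  have h2 : deriv C z = deriv (fun w => (w - z₀) ^ a * g w) z := Filter.EventuallyEq.deriv_eq hz
  have h3 : HasDerivAt (fun w : ℂ => (w - z₀) ^ a * g w)
      ((a * (z - z₀) ^ (a - 1) * 1) * g z + (z - z₀) ^ a * deriv g z) z :=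
    (((hasDerivAt_id z).sub_const z₀).pow a).mul hgz.differentiableAt.hasDerivAt
  rw [h2, h3.deriv]
  rcases a with _ | b
  · simp
  · rw [Nat.add_sub_cancel, pow_succ]
    push_cast
    ring

/-- The local computation behind the order lemma. -/
theorem local_step {z₀ : ℂ} {m a : ℕ} {H C A D u g : ℂ → ℂ} {w w₀ κ : ℂ}
    (hu : AnalyticAt ℂ u z₀) (hg : AnalyticAt ℂ g z₀) (hD : AnalyticAt ℂ D z₀)
    (hA : AnalyticAt ℂ A z₀)
    (hH : ∀ᶠ z in 𝓝 z₀, H z = (z - z₀) ^ m * u z)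
    (hC : ∀ᶠ z in 𝓝 z₀, C z = (z - z₀) ^ a * g z)
    (hrec : ∀ᶠ z in 𝓝 z₀, H z * A z = H z * (D z * deriv C z - w * C z * deriv D z) -
      κ * (D z * deriv H z - w₀ * H z * deriv D z) * C z) :
    ∃ B : ℂ → ℂ, AnalyticAt ℂ B z₀ ∧ B z₀ = u z₀ * D z₀ * g z₀ * (a - κ * m) ∧
      ∀ᶠ z in 𝓝 z₀, (z - z₀) * (u z * A z) = (z - z₀) ^ a * B z := by
  set B : ℂ → ℂ := fun z =>
    u z * (D z * (a * g z + (z - z₀) * deriv g z) - (z - z₀) * (w * g z * deriv D z)) -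
      κ * (D z * (m * u z + (z - z₀) * deriv u z) - (z - z₀) * (w₀ * u z * deriv D z)) * g z with hB
  have hid : AnalyticAt ℂ (fun z : ℂ => z - z₀) z₀ := analyticAt_id.sub analyticAt_const
  have hgd : AnalyticAt ℂ (fun z => deriv g z) z₀ := hg.deriv
  have hud : AnalyticAt ℂ (fun z => deriv u z) z₀ := hu.deriv
  have hDd : AnalyticAt ℂ (fun z => deriv D z) z₀ := hD.deriv
  have hBa : AnalyticAt ℂ B z₀ := by
    rw [hB]
    fun_prop
  refine ⟨B, hBa, ?_, ?_⟩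
  · rw [hB]
    simp only [sub_self, zero_mul, add_zero, sub_zero]
    ring
  · -- first off the point
    have h1 := sub_mul_deriv_pow_mul hu hH
    have h2 := sub_mul_deriv_pow_mul hg hC
    have hne : ∀ᶠ z in 𝓝[≠] z₀, (z - z₀) * (u z * A z) = (z - z₀) ^ a * B z := by
      have h3 : ∀ᶠ z in 𝓝[≠] z₀, z ≠ z₀ := eventually_mem_nhdsWithin
      filter_upwards [hH.filter_mono nhdsWithin_le_nhds, hC.filter_mono nhdsWithin_le_nhds,
        hrec.filter_mono nhdsWithin_le_nhds, h1.filter_mono nhdsWithin_le_nhds,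
        h2.filter_mono nhdsWithin_le_nhds, h3] with z e1 e2 e3 e4 e5 e6
      have hz : (z - z₀) ^ m ≠ 0 := pow_ne_zero _ (sub_ne_zero.2 e6)
      apply mul_left_cancel₀ hz
      have e7 : (z - z₀) ^ m * ((z - z₀) * (u z * A z)) = (z - z₀) * (H z * A z) := by
        rw [e1]; ring
      rw [e7, e3, e1, e2, hB]
      linear_combination ((z - z₀) ^ m * u z * D z) * e5 -
        (κ * D z * ((z - z₀) ^ a * g z)) * e4
    have hc1 : ContinuousAt (fun z => (z - z₀) * (u z * A z)) z₀ :=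
      (hid.mul (hu.mul hA)).continuousAt
    have hc2 : ContinuousAt (fun z => (z - z₀) ^ a * B z) z₀ :=
      ((hid.pow a).mul hBa).continuousAt
    have heq : (z₀ - z₀) * (u z₀ * A z₀) = (z₀ - z₀) ^ a * B z₀ := by
      have t1 : Tendsto (fun z => (z - z₀) * (u z * A z)) (𝓝[≠] z₀)
          (𝓝 ((z₀ - z₀) * (u z₀ * A z₀))) := hc1.tendsto.mono_left nhdsWithin_le_nhds
      have t2 : Tendsto (fun z => (z - z₀) * (u z * A z)) (𝓝[≠] z₀)
          (𝓝 ((z₀ - z₀) ^ a * B z₀)) :=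
        (hc2.tendsto.mono_left nhdsWithin_le_nhds).congr' (hne.mono fun z hz => hz.symm)
      exact tendsto_nhds_unique t1 t2
    rw [eventually_nhdsWithin_iff] at hne
    filter_upwards [hne] with z hz
    by_cases h4 : z = z₀
    · rw [h4]; exact heq
    · exact hz h4

/-- Local order lemma. -/
theorem dvd_order_local {z₀ : ℂ} {m n : ℕ} (hn : n ≠ 0) {D u : ℂ → ℂ} (c : ℕ → ℂ → ℂ)
    (w : ℕ → ℂ) (hu : AnalyticAt ℂ u z₀) (hu0 : u z₀ ≠ 0) (hD : AnalyticAt ℂ D z₀)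
    (hD0 : D z₀ ≠ 0) (hc : ∀ i, AnalyticAt ℂ (c i) z₀)
    (hH : ∀ᶠ z in 𝓝 z₀, c 0 z = (z - z₀) ^ m * u z)
    (hrec : ∀ i, ∀ᶠ z in 𝓝 z₀, c 0 z * c (i + 1) z =
      c 0 z * (D z * deriv (c i) z - w i * c i z * deriv D z) -
      (((n : ℂ) - 1) / n) * (D z * deriv (c 0) z - w 0 * c 0 z * deriv D z) * c i z) :
    n ∣ m := by
  by_contra hnm
  have hnC : (n : ℂ) ≠ 0 := by exact_mod_cast hn
  -- the leading coefficient never vanishes
  have hlead : ∀ i : ℕ, i ≤ m → (((m - i : ℕ) : ℂ) - (((n : ℂ) - 1) / n) * m) ≠ 0 := by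
    intro i hi h0
    apply hnm
    rw [Nat.cast_sub hi] at h0
    have h1 : (m : ℂ) = n * i := by
      field_simp at h0
      linear_combination h0
    exact ⟨i, by exact_mod_cast h1⟩
  have key : ∀ i : ℕ, i ≤ m → ∃ g : ℂ → ℂ, AnalyticAt ℂ g z₀ ∧ g z₀ ≠ 0 ∧
      ∀ᶠ z in 𝓝 z₀, c i z = (z - z₀) ^ (m - i) * g z := by
    intro i
    induction i with
    | zero => intro _; exact ⟨u, hu, hu0, by simpa using hH⟩
    | succ i ih =>
      intro hi
      obtain ⟨g, hg, hg0, hgc⟩ := ih (by omega)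
      obtain ⟨B, hB, hB0, hBe⟩ := local_step hu hg hD (hc (i + 1)) hH hgc (hrec i)
      have hB0' : B z₀ ≠ 0 := by
        rw [hB0]
        exact mul_ne_zero (mul_ne_zero (mul_ne_zero hu0 hD0) hg0) (hlead i (by omega))
      refine ⟨fun z => B z / u z, hB.div hu hu0, div_ne_zero hB0' hu0, ?_⟩
      -- off the point
      have hune : ∀ᶠ z in 𝓝 z₀, u z ≠ 0 := hu.continuousAt.eventually_ne hu0
      have hexp : m - i = (m - (i + 1)) + 1 := by omega
      have hne : ∀ᶠ z in 𝓝[≠] z₀, c (i + 1) z = (z - z₀) ^ (m - (i + 1)) * (B z / u z) := by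
        have h3 : ∀ᶠ z in 𝓝[≠] z₀, z ≠ z₀ := eventually_mem_nhdsWithin
        filter_upwards [hBe.filter_mono nhdsWithin_le_nhds,
          hune.filter_mono nhdsWithin_le_nhds, h3] with z e1 e2 e3
        have hz : z - z₀ ≠ 0 := sub_ne_zero.2 e3
        rw [hexp, pow_succ] at e1
        have e4 : u z * c (i + 1) z = (z - z₀) ^ (m - (i + 1)) * B z := by
          apply mul_left_cancel₀ hz
          linear_combination e1
        rw [← mul_div_assoc, ← e4, mul_div_cancel_left₀ _ e2]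
      have ha : AnalyticAt ℂ (fun z : ℂ => (z - z₀) ^ (m - (i + 1)) * (B z / u z)) z₀ :=
        ((analyticAt_id.sub analyticAt_const).pow _).mul (hB.div hu hu0)
      exact (((hc (i + 1)).frequently_eq_iff_eventually_eq ha).1 hne.frequently)
  obtain ⟨g, hg, hg0, hgc⟩ := key m le_rfl
  obtain ⟨B, hB, hB0, hBe⟩ := local_step hu hg hD (hc (m + 1)) hH hgc (hrec m)
  have hB0' : B z₀ ≠ 0 := by
    rw [hB0]
    exact mul_ne_zero (mul_ne_zero (mul_ne_zero hu0 hD0) hg0) (hlead m le_rfl)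
  have h1 := hBe.self_of_nhds
  rw [Nat.sub_self, pow_zero, one_mul, sub_self, zero_mul] at h1
  exact hB0' h1.symm

/-- **Order lemma.** -/
theorem dvd_analyticOrderAt (n : ℕ) (hn : n ≠ 0) (c : ℕ → ℍ → ℂ) (D : ℍ → ℂ) (w : ℕ → ℂ)
    (hc : ∀ i, MDifferentiable 𝓘(ℂ) 𝓘(ℂ) (c i)) (hD : MDifferentiable 𝓘(ℂ) 𝓘(ℂ) D)
    (hD0 : ∀ τ, D τ ≠ 0) (hc0 : c 0 ≠ 0)
    (hrec : ∀ i, ∀ τ : ℍ, c 0 τ * c (i + 1) τ =
      c 0 τ * (D τ * deriv (c i ∘ ofComplex) τ - w i * c i τ * deriv (D ∘ ofComplex) τ) -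
      (((n : ℂ) - 1) / n) *
        (D τ * deriv (c 0 ∘ ofComplex) τ - w 0 * c 0 τ * deriv (D ∘ ofComplex) τ) * c i τ) :
    ∀ τ : ℍ, ∃ m : ℕ, analyticOrderAt (c 0 ∘ ofComplex) (τ : ℂ) = ((n * m : ℕ) : ℕ∞) := by
  intro τ
  set U : Set ℂ := {z | 0 < z.im} with hU
  have hUo : IsOpen U := isOpen_upperHalfPlaneSet
  have han : ∀ i, AnalyticOnNhd ℂ (c i ∘ ofComplex) U := fun i =>
    (UpperHalfPlane.mdifferentiable_iff.mp (hc i)).analyticOnNhd hUo
  have hDan : AnalyticOnNhd ℂ (D ∘ ofComplex) U :=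
    (UpperHalfPlane.mdifferentiable_iff.mp hD).analyticOnNhd hUo
  have hUc : IsPreconnected U :=
    (Complex.isConnected_of_upperHalfPlane subset_rfl (by grind)).isPreconnected
  have hτU : (τ : ℂ) ∈ U := τ.im_pos
  have hfin : analyticOrderAt (c 0 ∘ ofComplex) (τ : ℂ) ≠ ⊤ := by
    intro htop
    apply hc0
    have h1 := (han 0).eqOn_zero_of_preconnected_of_eventuallyEq_zero hUc hτU
      (analyticOrderAt_eq_top.1 htop)
    ext σ
    have h2 := h1 σ.im_pos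
    simpa using h2
  obtain ⟨m, hm⟩ := ENat.ne_top_iff_exists.1 hfin
  obtain ⟨u, hu, hu0, hue⟩ := ((han 0 τ hτU).analyticOrderAt_eq_natCast).1 hm.symm
  have hev : ∀ᶠ z in 𝓝 (τ : ℂ), z ∈ U := hUo.mem_nhds hτU
  have hdvd : n ∣ m := by
    refine dvd_order_local hn (fun i => c i ∘ ofComplex) w hu hu0 (hDan τ hτU) ?_
      (fun i => han i τ hτU) ?_ ?_
    · rw [Function.comp_apply, ofComplex_apply]; exact hD0 τ
    · filter_upwards [hue] with z hz
      rw [hz, smul_eq_mul]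
    · intro i
      filter_upwards [hev] with z hz
      have h1 := hrec i ⟨z, hz⟩
      simp only [Function.comp_apply, ofComplex_apply_of_im_pos hz]
      exact h1
  obtain ⟨k, rfl⟩ := hdvd
  exact ⟨k, hm.symm⟩

end Fermat.Agent.EisChar
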