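import Mathlib

/-!
# n-th roots of holomorphic functions on the upper half plane

A holomorphic function on `ℍ`, not identically zero, all of whose zeros have order divisible by
`n`, is an `n`-th power of a holomorphic function.
-/

set_option autoImplicit false

namespace Fermat.Agent.EisChar

open UpperHalfPlane Filter Topology Metric Complex
open scoped Manifold

/-- Logarithm of a nonvanishing analytic function on a disc. -/
theorem exists_log_on_ball {c : ℂ} {r : ℝ} (hr : 0 < r) {g : ℂ → ℂ}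
    (hg : AnalyticOnNhd ℂ g (ball c r)) (hg0 : ∀ z ∈ ball c r, g z ≠ 0) :
    ∃ L : ℂ → ℂ, DifferentiableOn ℂ L (ball c r) ∧ ∀ z ∈ ball c r, Complex.exp (L z) = g z := by
  have hgd : DifferentiableOn ℂ g (ball c r) := hg.differentiableOn
  have hlog : DifferentiableOn ℂ (fun z => deriv g z / g z) (ball c r) :=
    (hgd.deriv isOpen_ball).div hgd hg0
  obtain ⟨L, hLc, hL⟩ := hlog.isExactOn_ball.with_val_at c (Complex.log (g c))
  have hLd : DifferentiableOn ℂ L (ball c r) :=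
    fun z hz => (hL z hz).differentiableAt.differentiableWithinAt
  refine ⟨L, hLd, ?_⟩
  -- `g * exp (-L)` has zero derivative
  have hderiv : ∀ z ∈ ball c r, HasDerivAt (fun w => g w * Complex.exp (-L w)) 0 z := by
    intro z hz
    have h1 : HasDerivAt g (deriv g z) z :=
      ((hgd z hz).differentiableAt (isOpen_ball.mem_nhds hz)).hasDerivAt
    have h2 : HasDerivAt (fun w => Complex.exp (-L w))
        (Complex.exp (-L z) * (-(deriv g z / g z))) z := ((hL z hz).neg).cexp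
    have h3 := h1.mul h2
    have h4 : g z * (deriv g z / g z) = deriv g z := mul_div_cancel₀ _ (hg0 z hz)
    have h5 : deriv g z * Complex.exp (-L z) +
        g z * (Complex.exp (-L z) * (-(deriv g z / g z))) = 0 := by
      linear_combination (-Complex.exp (-L z)) * h4
    rw [h5] at h3
    exact h3
  have hconst : ∀ z ∈ ball c r, g z * Complex.exp (-L z) = g c * Complex.exp (-L c) := by
    intro z hz
    have hconv : Convex ℝ (ball c r) := convex_ball c r
    have := hconv.is_const_of_fderivWithin_eq_zero (𝕜 := ℂ)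
      (f := fun w => g w * Complex.exp (-L w))
      (fun w hw => (hderiv w hw).differentiableAt.differentiableWithinAt)
      (fun w hw => by
        rw [fderivWithin_of_isOpen isOpen_ball hw]
        have h4 := (hderiv w hw).hasFDerivAt.fderiv
        rw [h4]
        ext
        simp)
      hz (mem_ball_self hr)
    exact this
  intro z hz
  have h1 := hconst z hz
  have hgc : g c ≠ 0 := hg0 c (mem_ball_self hr)
  rw [hLc, Complex.exp_neg, Complex.exp_neg, Complex.exp_log hgc, mul_inv_cancel₀ hgc] at h1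
  have h2 : Complex.exp (L z) ≠ 0 := Complex.exp_ne_zero _
  field_simp at h1
  exact h1.symm

/-- n-th root on a disc. -/
theorem exists_root_on_ball {c : ℂ} {r : ℝ} (hr : 0 < r) (n : ℕ) (hn : n ≠ 0) {H : ℂ → ℂ}
    (hH : AnalyticOnNhd ℂ H (closedBall c r))
    (hord : ∀ z ∈ closedBall c r, ∃ m : ℕ, analyticOrderAt H z = ((n * m : ℕ) : ℕ∞)) :
    ∃ g : ℂ → ℂ, DifferentiableOn ℂ g (ball c r) ∧ ∀ z ∈ ball c r, g z ^ n = H z := by
  classical
  have hHm : MeromorphicOn H (closedBall c r) := hH.meromorphicOn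
  have hmo : ∀ z ∈ closedBall c r, ∃ m : ℕ, meromorphicOrderAt H z = ((n * m : ℕ) : ℤ) := by
    intro z hz
    obtain ⟨m, hm⟩ := hord z hz
    refine ⟨m, ?_⟩
    rw [(hH z hz).meromorphicOrderAt_eq, hm]
    rfl
  have hfin : (MeromorphicOn.divisor H (closedBall c r)).support.Finite :=
    (MeromorphicOn.divisor H (closedBall c r)).finiteSupport (isCompact_closedBall c r)
  obtain ⟨g, hga, hg0, hgeq⟩ := hHm.extract_zeros_poles
    (fun u => by
      obtain ⟨m, hm⟩ := hmo u u.2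
      rw [hm]; exact WithTop.coe_ne_top) hfin
  set D := MeromorphicOn.divisor H (closedBall c r) with hD
  set E : ℂ → ℕ := fun u => (D u).toNat / n with hE
  have hDE : ∀ u, D u = ((n * E u : ℕ) : ℤ) := by
    intro u
    by_cases hu : u ∈ closedBall c r
    · obtain ⟨m, hm⟩ := hmo u hu
      have h1 : D u = ((n * m : ℕ) : ℤ) := by
        rw [hD, MeromorphicOn.divisor_apply hHm hu, hm]
        rfl
      rw [hE]
      simp only [h1, Int.toNat_natCast]
      rw [Nat.mul_div_cancel_left _ (Nat.pos_of_ne_zero hn)]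
    · have h1 : D u = 0 := by
        by_contra hne
        exact hu (D.supportWithinDomain hne)
      rw [hE]
      simp [h1]
  set s : Finset ℂ := hfin.toFinset with hs
  set P : ℂ → ℂ := fun z => ∏ u ∈ s, (z - u) ^ (E u) with hP
  have hPn : ∀ z, (∏ᶠ u, (· - u) ^ D u : ℂ → ℂ) z = P z ^ n := by
    intro z
    have h1 : (∏ᶠ u, (· - u) ^ D u : ℂ → ℂ) = ∏ u ∈ s, (fun z : ℂ => z - u) ^ D u := by
      apply finprod_eq_prod_of_mulSupport_subset
      intro u hu
      rw [hs, Set.Finite.coe_toFinset]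
      intro h0
      apply hu
      show (fun z : ℂ => z - u) ^ D u = 1
      rw [h0, zpow_zero]
    rw [h1, Finset.prod_apply, hP]
    simp only
    rw [← Finset.prod_pow]
    refine Finset.prod_congr rfl fun u _ => ?_
    rw [Pi.pow_apply, hDE u, zpow_natCast, mul_comm n, pow_mul]
  obtain ⟨L, hLd, hL⟩ := exists_log_on_ball hr (hga.mono ball_subset_closedBall)
    (fun z hz => hg0 ⟨z, ball_subset_closedBall hz⟩)
  have hPd : Differentiable ℂ P := by
    rw [hP]
    exact Differentiable.fun_finsetProd fun u _ => (differentiable_id.sub_const u).pow _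
  refine ⟨fun z => P z * Complex.exp (L z / n), ?_, ?_⟩
  · exact hPd.differentiableOn.mul ((hLd.div_const _).cexp)
  · intro z hz
    have h1 : ∀ w ∈ ball c r, (P w * Complex.exp (L w / n)) ^ n = P w ^ n * g w := by
      intro w hw
      rw [mul_pow, ← Complex.exp_nat_mul, mul_div_cancel₀ _ (by exact_mod_cast hn), hL w hw]
    rw [h1 z hz]
    -- equality on a punctured neighbourhood
    have h2 : ∀ᶠ w in 𝓝[≠] z, P w ^ n * g w = H w := by
      have h3 := (mem_codiscreteWithin_iff_forall_mem_nhdsNE.1 hgeq) z (ball_subset_closedBall hz)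
      have h4 : ∀ᶠ w in 𝓝[≠] z, w ∈ ball c r :=
        mem_nhdsWithin_of_mem_nhds (isOpen_ball.mem_nhds hz)
      filter_upwards [h3, h4] with w hw hwb
      rcases hw with hw | hw
      · have h5 : H w = ((∏ᶠ u, (· - u) ^ D u : ℂ → ℂ) • g) w := hw
        rw [h5, Pi.smul_apply', hPn w, smul_eq_mul]
      · exact absurd (ball_subset_closedBall hwb) hw
    have hc1 : ContinuousAt (fun w => P w ^ n * g w) z :=
      ((hPd.continuous.continuousAt).pow n).mul
        ((hga z (ball_subset_closedBall hz)).continuousAt)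
    have hc2 : ContinuousAt H z := (hH z (ball_subset_closedBall hz)).continuousAt
    have hc3 : Tendsto (fun w => P w ^ n * g w) (𝓝[≠] z) (𝓝 (P z ^ n * g z)) :=
      hc1.tendsto.mono_left nhdsWithin_le_nhds
    have hc4 : Tendsto (fun w => P w ^ n * g w) (𝓝[≠] z) (𝓝 (H z)) :=
      (hc2.tendsto.mono_left nhdsWithin_le_nhds).congr' (h2.mono fun w hw => hw.symm)
    exact tendsto_nhds_unique hc3 hc4

/-- Two differentiable functions on a disc with the same `n`-th power and the same nonzero value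
at one point are equal. -/
theorem eqOn_of_pow_eq {c : ℂ} {r : ℝ} {n : ℕ} (hn : n ≠ 0) {f₁ f₂ : ℂ → ℂ}
    (h₁ : DifferentiableOn ℂ f₁ (ball c r)) (h₂ : DifferentiableOn ℂ f₂ (ball c r))
    (hpow : ∀ z ∈ ball c r, f₁ z ^ n = f₂ z ^ n) {z₀ : ℂ} (hz₀ : z₀ ∈ ball c r)
    (heq : f₁ z₀ = f₂ z₀) (hne : f₂ z₀ ≠ 0) : Set.EqOn f₁ f₂ (ball c r) := by
  have ha₁ : AnalyticOnNhd ℂ f₁ (ball c r) := h₁.analyticOnNhd isOpen_ball
  have ha₂ : AnalyticOnNhd ℂ f₂ (ball c r) := h₂.analyticOnNhd isOpen_ball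
  have hpre : IsPreconnected (ball c r) := (convex_ball c r).isPreconnected
  refine ha₁.eqOn_of_preconnected_of_eventuallyEq ha₂ hpre hz₀ ?_
  have hc₁ : ContinuousAt f₁ z₀ := (ha₁ z₀ hz₀).continuousAt
  have hc₂ : ContinuousAt f₂ z₀ := (ha₂ z₀ hz₀).continuousAt
  have hS : ContinuousAt (fun z => ∑ i ∈ Finset.range n, f₁ z ^ i * f₂ z ^ (n - 1 - i)) z₀ := by
    fun_prop
  have hS0 : (∑ i ∈ Finset.range n, f₁ z₀ ^ i * f₂ z₀ ^ (n - 1 - i)) ≠ 0 := by
    rw [heq]
    have h3 : ∀ i ∈ Finset.range n, f₂ z₀ ^ i * f₂ z₀ ^ (n - 1 - i) = f₂ z₀ ^ (n - 1) := by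
      intro i hi
      rw [← pow_add]
      congr 1
      have := Finset.mem_range.1 hi
      omega
    rw [Finset.sum_congr rfl h3, Finset.sum_const, Finset.card_range, nsmul_eq_mul]
    exact mul_ne_zero (by exact_mod_cast hn) (pow_ne_zero _ hne)
  have hev : ∀ᶠ z in 𝓝 z₀, (∑ i ∈ Finset.range n, f₁ z ^ i * f₂ z ^ (n - 1 - i)) ≠ 0 :=
    hS.eventually_ne hS0
  filter_upwards [hev, isOpen_ball.mem_nhds hz₀] with z hz hzb
  have h4 := geom_sum₂_mul (f₁ z) (f₂ z) n
  rw [hpow z hzb, sub_self] at h4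
  rcases mul_eq_zero.1 h4 with h5 | h5
  · exact absurd h5 hz
  · exact sub_eq_zero.1 h5

/-- centres of the exhausting discs. -/
noncomputable def cen (k : ℕ) : ℂ := ((k : ℂ) + 2) * Complex.I

/-- radii of the exhausting discs. -/
noncomputable def rad (k : ℕ) : ℝ := ((k : ℝ) + 2) - 1 / ((k : ℝ) + 2)

theorem rad_pos (k : ℕ) : 0 < rad k := by
  unfold rad
  have h1 : (0 : ℝ) ≤ k := Nat.cast_nonneg k
  have h2 : 1 / ((k : ℝ) + 2) ≤ 1 / 2 := by
    apply one_div_le_one_div_of_le <;> linarith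
  linarith

theorem cen_im (k : ℕ) : (cen k).im = (k : ℝ) + 2 := by
  simp [cen]

theorem cen_re (k : ℕ) : (cen k).re = 0 := by
  simp [cen]

theorem closedBall_subset (k : ℕ) : closedBall (cen k) (rad k) ⊆ {z | 0 < z.im} := by
  intro z hz
  rw [mem_closedBall, dist_eq_norm] at hz
  have h1 : |(z - cen k).im| ≤ rad k := (Complex.abs_im_le_norm _).trans hz
  rw [Complex.sub_im, cen_im] at h1
  have h2 := (abs_le.1 h1).1
  have h3 : (0 : ℝ) < 1 / ((k : ℝ) + 2) := by positivity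
  show 0 < z.im
  unfold rad at h2
  linarith

theorem ball_mono {j k : ℕ} (h : j ≤ k) : ball (cen j) (rad j) ⊆ ball (cen k) (rad k) := by
  apply ball_subset_ball'
  have h1 : dist (cen j) (cen k) = (k : ℝ) - j := by
    rw [dist_comm, dist_eq_norm]
    have h2 : cen k - cen j = (((k : ℝ) - j : ℝ) : ℂ) * Complex.I := by
      simp only [cen]; push_cast; ring
    rw [h2, norm_mul, Complex.norm_I, mul_one, Complex.norm_real, Real.norm_eq_abs,
      abs_of_nonneg]
    have : (j : ℝ) ≤ k := by exact_mod_cast h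
    linarith
  rw [h1]
  unfold rad
  have h2 : (j : ℝ) ≤ k := by exact_mod_cast h
  have h3 : 1 / ((k : ℝ) + 2) ≤ 1 / ((j : ℝ) + 2) := by
    apply one_div_le_one_div_of_le
    · positivity
    · linarith
  linarith

theorem exists_mem_ball {z : ℂ} (hz : 0 < z.im) : ∃ k : ℕ, z ∈ ball (cen k) (rad k) := by
  obtain ⟨k, hk⟩ := exists_nat_gt ((‖z‖ ^ 2 + 2) / (2 * z.im))
  refine ⟨k, ?_⟩
  rw [mem_ball, dist_eq_norm]
  have h0 : (0 : ℝ) ≤ k := Nat.cast_nonneg k
  have h1 : ‖z‖ ^ 2 + 2 < (k + 2) * (2 * z.im) := by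
    rw [div_lt_iff₀ (by positivity)] at hk
    nlinarith
  have h2 : ‖z - cen k‖ ^ 2 < rad k ^ 2 := by
    have h3 : ‖z - cen k‖ ^ 2 = ‖z‖ ^ 2 - 2 * ((k : ℝ) + 2) * z.im + ((k : ℝ) + 2) ^ 2 := by
      rw [Complex.sq_norm, Complex.sq_norm, Complex.normSq_apply, Complex.normSq_apply,
        Complex.sub_re, Complex.sub_im, cen_re, cen_im]
      ring
    have h4 : rad k ^ 2 = ((k : ℝ) + 2) ^ 2 - 2 + (1 / ((k : ℝ) + 2)) ^ 2 := by
      unfold rad
      have : ((k : ℝ) + 2) ≠ 0 := by positivity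
      field_simp
      ring
    rw [h3, h4]
    have h5 : (0 : ℝ) < (1 / ((k : ℝ) + 2)) ^ 2 := by positivity
    nlinarith
  exact lt_of_pow_lt_pow_left₀ 2 (rad_pos k).le h2

/-- **n-th root lemma.** -/
theorem exists_pow_eq (n : ℕ) (hn : n ≠ 0) (h : ℍ → ℂ) (hh : MDifferentiable 𝓘(ℂ) 𝓘(ℂ) h)
    (_h0 : h ≠ 0)
    (hord : ∀ τ : ℍ, ∃ m : ℕ, analyticOrderAt (h ∘ ofComplex) (τ : ℂ) = ((n * m : ℕ) : ℕ∞)) :
    ∃ g : ℍ → ℂ, MDifferentiable 𝓘(ℂ) 𝓘(ℂ) g ∧ ∀ τ, g τ ^ n = h τ := by
  set U : Set ℂ := {z | 0 < z.im} with hU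
  have hUo : IsOpen U := isOpen_upperHalfPlaneSet
  set H : ℂ → ℂ := h ∘ ofComplex with hHdef
  have hH : AnalyticOnNhd ℂ H U := (UpperHalfPlane.mdifferentiable_iff.mp hh).analyticOnNhd hUo
  -- roots on discs
  have hex : ∀ k : ℕ, ∃ g : ℂ → ℂ, DifferentiableOn ℂ g (ball (cen k) (rad k)) ∧
      ∀ z ∈ ball (cen k) (rad k), g z ^ n = H z := by
    intro k
    refine exists_root_on_ball (rad_pos k) n hn (hH.mono (closedBall_subset k)) ?_
    intro z hz
    exact hord ⟨z, closedBall_subset k hz⟩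
  choose G hGd hGp using hex
  -- a base point
  have hc0 : cen 0 ∈ ball (cen 0) (rad 0) := mem_ball_self (rad_pos 0)
  obtain ⟨z₀, hz₀, hHz₀⟩ : ∃ z₀ ∈ ball (cen 0) (rad 0), H z₀ ≠ 0 := by
    have hcU : cen 0 ∈ U := closedBall_subset 0 (ball_subset_closedBall hc0)
    obtain ⟨m, hm⟩ := hord ⟨cen 0, hcU⟩
    have h1 : analyticOrderAt H (cen 0) ≠ ⊤ := by
      have h2 : analyticOrderAt H (cen 0) = ((n * m : ℕ) : ℕ∞) := hm
      rw [h2]; exact ENat.natCast_ne_top _
    have h2 : ∀ᶠ z in 𝓝[≠] (cen 0), H z ≠ 0 := by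
      rcases (hH (cen 0) hcU).eventually_eq_zero_or_eventually_ne_zero with h3 | h3
      · exact absurd (analyticOrderAt_eq_top.2 h3) h1
      · exact h3
    have h3 : ∀ᶠ z in 𝓝[≠] (cen 0), z ∈ ball (cen 0) (rad 0) :=
      mem_nhdsWithin_of_mem_nhds (isOpen_ball.mem_nhds hc0)
    obtain ⟨z, hz1, hz2⟩ := (h2.and h3).exists
    exact ⟨z, hz2, hz1⟩
  have hz₀k : ∀ k, z₀ ∈ ball (cen k) (rad k) := fun k => ball_mono (Nat.zero_le k) hz₀
  have hGz₀ : ∀ k, G k z₀ ≠ 0 := by
    intro k hk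
    apply hHz₀
    rw [← hGp k z₀ (hz₀k k), hk, zero_pow hn]
  -- normalised roots
  set F : ℕ → ℂ → ℂ := fun k z => (G 0 z₀ / G k z₀) * G k z with hF
  have hFd : ∀ k, DifferentiableOn ℂ (F k) (ball (cen k) (rad k)) :=
    fun k => (hGd k).const_mul _
  have hFp : ∀ k, ∀ z ∈ ball (cen k) (rad k), F k z ^ n = H z := by
    intro k z hz
    rw [hF]
    simp only
    rw [mul_pow, div_pow, hGp 0 z₀ hz₀, hGp k z₀ (hz₀k k), div_self hHz₀, one_mul, hGp k z hz]
  have hF0 : ∀ k, F k z₀ = G 0 z₀ := by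
    intro k
    rw [hF]
    simp only
    rw [div_mul_cancel₀ _ (hGz₀ k)]
  have huniq : ∀ j k, j ≤ k → Set.EqOn (F k) (F j) (ball (cen j) (rad j)) := by
    intro j k hjk
    refine eqOn_of_pow_eq hn ((hFd k).mono (ball_mono hjk)) (hFd j) ?_ (hz₀k j) ?_ ?_
    · intro z hz
      rw [hFp k z (ball_mono hjk hz), hFp j z hz]
    · rw [hF0, hF0]
    · rw [hF0]; exact hGz₀ 0
  have huniq' : ∀ j k z, z ∈ ball (cen j) (rad j) → z ∈ ball (cen k) (rad k) → F j z = F k z := by
    intro j k z hj hk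
    rcases le_total j k with h1 | h1
    · exact (huniq j k h1 hj).symm
    · exact huniq k j h1 hk
  have hkex : ∀ z : ℂ, ∃ k : ℕ, 0 < z.im → z ∈ ball (cen k) (rad k) := by
    intro z
    by_cases hz : 0 < z.im
    · obtain ⟨k, hk⟩ := exists_mem_ball hz
      exact ⟨k, fun _ => hk⟩
    · exact ⟨0, fun h1 => absurd h1 hz⟩
  choose K hK using hkex
  set R : ℂ → ℂ := fun z => F (K z) z with hR
  have hReq : ∀ k, ∀ z ∈ ball (cen k) (rad k), R z = F k z := by
    intro k z hz
    have hzU : 0 < z.im := closedBall_subset k (ball_subset_closedBall hz)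
    exact huniq' (K z) k z (hK z hzU) hz
  have hRd : DifferentiableOn ℂ R U := by
    intro z hz
    have h1 : ball (cen (K z)) (rad (K z)) ∈ 𝓝 z := isOpen_ball.mem_nhds (hK z hz)
    have h2 : DifferentiableAt ℂ (F (K z)) z := (hFd (K z)).differentiableAt h1
    have h3 : R =ᶠ[𝓝 z] F (K z) := by
      filter_upwards [h1] with w hw
      exact hReq (K z) w hw
    exact (h2.congr_of_eventuallyEq h3).differentiableWithinAt
  refine ⟨fun τ => R τ, ?_, ?_⟩
  · rw [UpperHalfPlane.mdifferentiable_iff]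
    refine hRd.congr ?_
    intro z hz
    simp only [Function.comp_apply]
    rw [ofComplex_apply_of_im_pos hz]
  · intro τ
    have h1 : (τ : ℂ) ∈ U := τ.im_pos
    have h2 : R τ ^ n = H τ := by
      rw [hReq (K τ) τ (hK τ h1)]
      exact hFp _ _ (hK τ h1)
    rw [h2, hHdef, Function.comp_apply, ofComplex_apply]

end Fermat.Agent.EisChar
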