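import Fermat.Agent.EisChar.Forms
import Fermat.Agent.EisChar.Root
import Fermat.Agent.EisChar.Order
import Fermat.Agent.IntStruct.EN
import Fermat.Agent.IntStruct.Assembly

/-!
# Galois conjugates of forms with character on `Γ₀(N)`
-/

set_option autoImplicit false

open UpperHalfPlane ModularForm Matrix.SpecialLinearGroup CongruenceSubgroup
open scoped MatrixGroups Manifold ModularForm Topology Derivative
open Fermat.Agent.IntStruct

noncomputable section

namespace Fermat.Agent.EisChar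

variable {Γ : Subgroup SL(2, ℤ)}

/-- Modular forms of weight `k` with character `χ` on the subgroup `Γ` of `SL(2, ℤ)`. -/
structure CharForm (Γ : Subgroup SL(2, ℤ)) (χ : Γ →* ℂˣ) (k : ℤ) (f : ℍ → ℂ) : Prop where
  holo : MDiff f
  slash : ∀ γ : Γ, f ∣[k] (γ : SL(2, ℤ)) = ((χ γ : ℂˣ) : ℂ) • f
  bdd : ∀ g : SL(2, ℤ), IsBoundedAtImInfty (f ∣[k] g)

lemma T_mem_Gamma0 (N : ℕ) : ModularGroup.T ∈ Gamma0 N := by simp [ModularGroup.T, Gamma0_mem]

lemma one_mem_periods (hTΓ : ModularGroup.T ∈ Γ) :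
    (1 : ℝ) ∈ (Γ : Subgroup (GL (Fin 2) ℝ)).strictPeriods := by
  rw [Subgroup.strictPeriods_eq_zmultiples_one_of_T_mem hTΓ]
  exact AddSubgroup.mem_zmultiples 1

/-- `σ` acts on the `q`-expansions of the modular forms on `Γ`. -/
def ConjStable (Γ : Subgroup SL(2, ℤ)) (σ : ℂ →+* ℂ) : Prop :=
  ∀ (k : ℤ) (f : ModularForm (Γ : Subgroup (GL (Fin 2) ℝ)) k),
    ∃ f' : ModularForm (Γ : Subgroup (GL (Fin 2) ℝ)) k, qExpansion 1 f' = (qExpansion 1 f).map σ

namespace CharForm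

variable {χ ψ : Γ →* ℂˣ} {k l : ℤ} {f g : ℍ → ℂ}

lemma weight_congr (h : CharForm Γ χ k f) (hkl : k = l) : CharForm Γ χ l f := hkl ▸ h

lemma char_congr (h : CharForm Γ χ k f) (hkl : χ = ψ) : CharForm Γ ψ k f := hkl ▸ h

lemma zero (χ : Γ →* ℂˣ) (k : ℤ) : CharForm Γ χ k 0 where
  holo := mdifferentiable_const
  slash γ := by rw [SlashAction.zero_slash, smul_zero]
  bdd g := by
    rw [SlashAction.zero_slash]
    exact Filter.const_boundedAtFilter _ (0 : ℂ)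

lemma add (hf : CharForm Γ χ k f) (hg : CharForm Γ χ k g) : CharForm Γ χ k (f + g) where
  holo := hf.holo.add hg.holo
  slash γ := by rw [SlashAction.add_slash, hf.slash, hg.slash, smul_add]
  bdd γ := by
    rw [SlashAction.add_slash]
    exact (hf.bdd γ).add (hg.bdd γ)

lemma smul (c : ℂ) (hf : CharForm Γ χ k f) : CharForm Γ χ k (c • f) where
  holo := hf.holo.const_smul c
  slash γ := by rw [SL_smul_slash, hf.slash, smul_comm]
  bdd γ := by
    rw [SL_smul_slash]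
    exact (hf.bdd γ).smul c

lemma sub (hf : CharForm Γ χ k f) (hg : CharForm Γ χ k g) : CharForm Γ χ k (f - g) := by
  have := hf.add (hg.smul (-1))
  rwa [neg_one_smul, ← sub_eq_add_neg] at this

lemma mul (hf : CharForm Γ χ k f) (hg : CharForm Γ ψ l g) :
    CharForm Γ (χ * ψ) (k + l) (f * g) where
  holo := hf.holo.mul hg.holo
  slash γ := by
    rw [mul_slash_SL2, hf.slash, hg.slash]
    ext τ
    simp only [Pi.mul_apply, Pi.smul_apply, smul_eq_mul, MonoidHom.mul_apply, Units.val_mul]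
    ring
  bdd γ := by
    rw [mul_slash_SL2]
    exact (hf.bdd γ).mul (hg.bdd γ)

lemma one : CharForm Γ 1 0 1 where
  holo := mdifferentiable_const
  slash γ := by
    rw [ModularForm.is_invariant_one]
    simp
  bdd γ := by
    rw [ModularForm.is_invariant_one]
    exact Filter.const_boundedAtFilter _ (1 : ℂ)

lemma pow (hf : CharForm Γ χ k f) (n : ℕ) : CharForm Γ (χ ^ n) (n * k) (f ^ n) := by
  induction n with
  | zero =>
    rw [pow_zero]
    exact (one.weight_congr (by simp)).char_congr (pow_zero χ).symm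
  | succ n ih =>
    rw [pow_succ]
    exact ((ih.mul hf).weight_congr (by push_cast; ring)).char_congr (pow_succ χ n).symm

lemma br (hf : CharForm Γ χ k f) : CharForm Γ χ (k + 14) (br k f) where
  holo := br_mdiff k hf.holo
  slash γ := by
    rw [br_slash k hf.holo, hf.slash]
    ext τ
    simp only [EisChar.br, Derivative.normalizedDerivOfComplex_smul _ _ hf.holo, Pi.smul_apply,
      smul_eq_mul]
    ring
  bdd γ := by
    rw [br_slash k hf.holo]
    exact br_bdd k (hf.holo.slash k (mapGL ℝ γ)) (hf.bdd γ)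

/-- The modular form attached to a form with trivial character. -/
def toMF [Γ.FiniteIndex] (hf : CharForm Γ 1 k f) :
    ModularForm (Γ : Subgroup (GL (Fin 2) ℝ)) k where
  toFun := f
  slash_action_eq' := by
    rintro _ ⟨γ, hγ, rfl⟩
    have := hf.slash ⟨γ, hγ⟩
    rw [MonoidHom.one_apply, Units.val_one, one_smul] at this
    exact this
  holo' := hf.holo
  bdd_at_cusps' := by
    intro c hc
    rw [Subgroup.IsArithmetic.isCusp_iff_isCusp_SL2Z] at hc
    rw [OnePoint.isBoundedAt_iff_forall_SL2Z hc]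
    intro γ _
    exact hf.bdd γ

@[simp] lemma coe_toMF [Γ.FiniteIndex] (hf : CharForm Γ 1 k f) : (hf.toMF : ℍ → ℂ) = f := rfl

lemma ofMF [Γ.FiniteIndex] (f : ModularForm (Γ : Subgroup (GL (Fin 2) ℝ)) k) : CharForm Γ 1 k f where
  holo := ModularFormClass.holo f
  slash γ := by
    rw [MonoidHom.one_apply, Units.val_one, one_smul]
    exact SlashInvariantFormClass.slash_action_eq f _ ⟨γ, γ.2, rfl⟩
  bdd g := ModularFormClass.bdd_at_infty_slash f g

end CharForm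

/-! ### Conjugation on `Γ₀(N)` -/

/-- Conjugation on `Γ`, given a form with `σ`-invariant `q`-expansion and stabiliser `Γ`. -/
lemma conjStable_of_form [Γ.FiniteIndex] (hTΓ : ModularGroup.T ∈ Γ) (σ : ℂ →+* ℂ) {w : ℤ}
    (g : ModularForm (Γ : Subgroup (GL (Fin 2) ℝ)) w)
    (hgσ : (qExpansion 1 g).map σ = qExpansion 1 g)
    (hg : ∀ γ : SL(2, ℤ), (g : ℍ → ℂ) ∣[w] γ = g → γ ∈ Γ) : ConjStable Γ σ := by
  intro k f
  obtain ⟨f', hf', -⟩ := exists_sigma (one_mem_periods hTΓ) σ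
    (fun k f => exists_conj_levelOne σ f) g hgσ hg f
  exact ⟨f', hf'⟩

lemma conjStable_Gamma0 (N : ℕ) [NeZero N] (σ : ℂ →+* ℂ) : ConjStable (Gamma0 N) σ :=
  conjStable_of_form (T_mem_Gamma0 N) σ (EN N)
    (by
      obtain ⟨G, hG⟩ := EN_mem_intForms N
      rw [← hG]
      ext n
      simp) (fun γ h => mem_Gamma0_of_slash_EN_eq γ h)

/-! ### Roots of unity -/

lemma exists_smul_eq_of_pow_eq {F G : ℍ → ℂ} (hF : MDiff F) (hG : MDiff G) {n : ℕ} (hn : n ≠ 0)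
    (h : F ^ n = G ^ n) : ∃ ζ : ℂ, ζ ^ n = 1 ∧ F = ζ • G := by
  have h1 : ∏ ζ ∈ Polynomial.nthRootsFinset n (1 : ℂ), (F - ζ • G) = 0 := by
    ext τ
    have h2 := (Complex.isPrimitiveRoot_exp n hn).pow_sub_pow_eq_prod_sub_mul (F τ) (G τ)
      (Nat.pos_of_ne_zero hn)
    rw [Finset.prod_apply]
    simp only [Pi.sub_apply, Pi.smul_apply, smul_eq_mul, Pi.zero_apply]
    rw [← h2]
    have := congrFun h τ
    simp only [Pi.pow_apply] at this
    rw [this, sub_self]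
  rw [UpperHalfPlane.prod_eq_zero_iff (fun ζ _ => hF.sub (hG.const_smul ζ))] at h1
  obtain ⟨ζ, hζ, h2⟩ := h1
  exact ⟨ζ, (Polynomial.mem_nthRootsFinset (Nat.pos_of_ne_zero hn) 1).mp hζ, sub_eq_zero.mp h2⟩

lemma powerSeries_exists_smul_eq_of_pow_eq {A B : PowerSeries ℂ} {n : ℕ} (hn : n ≠ 0)
    (h : A ^ n = B ^ n) : ∃ ζ : ℂ, ζ ^ n = 1 ∧ A = ζ • B := by
  have h0 : IsPrimitiveRoot (PowerSeries.C (Complex.exp (2 * Real.pi * Complex.I / n))) n :=
    (Complex.isPrimitiveRoot_exp n hn).map_of_injective PowerSeries.C_injective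
  have h2 := h0.pow_sub_pow_eq_prod_sub_mul A B (Nat.pos_of_ne_zero hn)
  rw [h, sub_self, eq_comm, Finset.prod_eq_zero_iff] at h2
  obtain ⟨z, hz, h3⟩ := h2
  rw [Polynomial.mem_nthRootsFinset (Nat.pos_of_ne_zero hn)] at hz
  have : NeZero n := ⟨hn⟩
  obtain ⟨i, hi, hzi⟩ := h0.eq_pow_of_pow_eq_one hz
  refine ⟨Complex.exp (2 * Real.pi * Complex.I / n) ^ i, ?_, ?_⟩
  · rw [← pow_mul, mul_comm i n, pow_mul, (Complex.isPrimitiveRoot_exp n hn).pow_eq_one, one_pow]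
  · rw [sub_eq_zero] at h3
    rw [h3, ← hzi, ← map_pow, PowerSeries.smul_eq_C_mul]

/-- A holomorphic function transforming under `Γ` up to scalars defines a character. -/
lemma exists_character {g : ℍ → ℂ} (hg0 : g ≠ 0) {k : ℤ}
    (h : ∀ γ : Γ, ∃ ζ : ℂ, ζ ≠ 0 ∧ g ∣[k] (γ : SL(2, ℤ)) = ζ • g) :
    ∃ χ : Γ →* ℂˣ, ∀ γ : Γ, g ∣[k] (γ : SL(2, ℤ)) = ((χ γ : ℂˣ) : ℂ) • g := by
  choose z hz0 hz using h
  obtain ⟨τ, hτ⟩ := Function.ne_iff.mp hg0
  have huniq : ∀ a b : ℂ, a • g = b • g → a = b := by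
    intro a b hab
    have := congrFun hab τ
    simp only [Pi.smul_apply, smul_eq_mul] at this
    exact mul_right_cancel₀ hτ this
  refine ⟨{ toFun := fun γ => Units.mk0 (z γ) (hz0 γ), map_one' := ?_, map_mul' := ?_ }, ?_⟩
  · ext
    apply huniq
    rw [Units.val_mk0, ← hz 1, Units.val_one, one_smul, OneMemClass.coe_one,
      SlashAction.slash_one]
  · intro γ δ
    ext
    apply huniq
    rw [Units.val_mul, Units.val_mk0, Units.val_mk0, Units.val_mk0, ← hz (γ * δ),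
      Subgroup.coe_mul, SlashAction.slash_mul, hz γ, SL_smul_slash, hz δ, smul_smul]
  · intro γ
    exact hz γ

/-! ### The recursion -/

/-- iterated brackets -/
def rr (f : ℍ → ℂ) (k : ℤ) : ℕ → ℍ → ℂ
  | 0 => f
  | i + 1 => br (k + 14 * i) (rr f k i)

lemma CharForm.rr {χ : Γ →* ℂˣ} {k : ℤ} {f : ℍ → ℂ} (hf : CharForm Γ χ k f) (i : ℕ) :
    CharForm Γ χ (k + 14 * i) (rr f k i) := by
  induction i with
  | zero => exact hf.weight_congr (by simp)
  | succ i ih => exact ih.br.weight_congr (by push_cast; ring)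

lemma mul_nderiv_pow {f : ℍ → ℂ} (hf : MDiff f) (m : ℕ) :
    f * D (f ^ m) = (m : ℂ) • (f ^ m * D f) := by
  rw [Derivative.normalizedDerivOfComplex_pow f m hf]
  rcases m with _ | m
  · ext τ
    simp
  · ext τ
    simp only [Pi.mul_apply, Pi.pow_apply, Pi.smul_apply, smul_eq_mul, Nat.add_sub_cancel,
      Pi.natCast_apply]
    push_cast
    ring

lemma recursion {f : ℍ → ℂ} (hf : MDiff f) (k : ℤ) (m i : ℕ) (r : ℍ → ℂ) (hr : MDiff r) (τ : ℍ) :
    ((12 : ℤ) * ((m + 1 : ℕ) : ℤ) : ℤ) *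
      ((f ^ m * f) τ * (f ^ m * br (k + 14 * i) r) τ) =
    ((m + 1 : ℕ) : ℤ) * ((f ^ m * f) τ * ((12 : ℤ) * (P τ * D (f ^ m * r) τ) -
      (((m + 1 : ℕ) : ℤ) * k + 14 * i : ℤ) * ((f ^ m * r) τ * D P τ))) -
    (m : ℤ) * (((12 : ℤ) * (P τ * D (f ^ m * f) τ) -
      (((m + 1 : ℕ) : ℤ) * k : ℤ) * ((f ^ m * f) τ * D P τ)) * (f ^ m * r) τ) := by
  have h1 := congrFun (mul_nderiv_pow hf m) τ
  rw [Derivative.normalizedDerivOfComplex_mul _ _ (hf.pow m) hr,
    Derivative.normalizedDerivOfComplex_mul _ _ (hf.pow m) hf]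
  simp only [Pi.mul_apply, Pi.pow_apply, Pi.smul_apply, smul_eq_mul, Pi.add_apply, br] at h1 ⊢
  push_cast
  linear_combination (-12 * (m + 1 : ℂ) * P τ * f τ ^ m * r τ + 12 * m * P τ * f τ ^ m * r τ) * h1

lemma slash_T_apply (f : ℍ → ℂ) (k : ℤ) (τ : ℍ) :
    (f ∣[k] ModularGroup.T) τ = f ((1 : ℝ) +ᵥ τ) := by
  rw [SL_slash_apply, UpperHalfPlane.modular_T_smul]
  have : denom ModularGroup.T τ = 1 := by
    simp [denom, ModularGroup.T]
  rw [this, _root_.one_zpow, mul_one]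

lemma periodic_of_vadd {f : ℍ → ℂ} {c : ℝ} (h : ∀ τ : ℍ, f (c +ᵥ τ) = f τ) :
    Function.Periodic (f ∘ ofComplex) (c : ℂ) := by
  intro z
  by_cases hz : 0 < z.im
  · have hz' : 0 < (z + c).im := by simpa using hz
    simp only [Function.comp_apply, ofComplex_apply_of_im_pos hz,
      ofComplex_apply_of_im_pos hz']
    rw [← h ⟨z, hz⟩]
    congr 1
    ext
    simp [add_comm]
  · have hz' : (z + c).im ≤ 0 := by simpa using hz
    simp only [Function.comp_apply, ofComplex_apply_of_im_nonpos (not_lt.mp hz),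
      ofComplex_apply_of_im_nonpos hz']

lemma CharForm.mem_qAlg {χ : Γ →* ℂˣ} {k : ℤ} {f : ℍ → ℂ} (hf : CharForm Γ χ k f)
    {hTΓ : ModularGroup.T ∈ Γ} (hT : χ ⟨ModularGroup.T, hTΓ⟩ = 1) : f ∈ qAlg := by
  have h1 : ∀ τ : ℍ, f ((1 : ℝ) +ᵥ τ) = f τ := fun τ => by
    rw [← slash_T_apply f k τ]
    have := hf.slash ⟨ModularGroup.T, hTΓ⟩
    rw [hT, Units.val_one, one_smul] at this
    exact congrFun this τ
  refine ⟨by simpa using periodic_of_vadd h1, hf.holo, ?_⟩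
  · have := hf.bdd 1
    rwa [SlashAction.slash_one] at this

/-- the conjugate of the `n`-th power of a form with character has an `n`-th root -/
theorem exists_conj_root [Γ.FiniteIndex] {χ : Γ →* ℂˣ} {k : ℤ} {f : ℍ → ℂ}
    (hf : CharForm Γ χ k f) (hf0 : f ≠ 0) {n : ℕ} (hn : n ≠ 0) (hχ : χ ^ n = 1)
    {hTΓ : ModularGroup.T ∈ Γ} (hT : χ ⟨ModularGroup.T, hTΓ⟩ = 1) {σ : ℂ →+* ℂ}
    (hσ : ConjStable Γ σ) :
    ∃ (g : ℍ → ℂ) (H : ModularForm (Γ : Subgroup (GL (Fin 2) ℝ)) (n * k)),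
      MDiff g ∧ (∀ τ, g τ ^ n = H τ) ∧
      H ≠ 0 ∧ qExpansion 1 H = ((qExpansion 1 f) ^ n).map σ := by
  obtain ⟨m, rfl⟩ := Nat.exists_eq_succ_of_ne_zero hn
  have hc : ∀ i : ℕ, CharForm Γ 1 (((m.succ : ℕ) : ℤ) * k + 14 * i) (f ^ m * rr f k i) := by
    intro i
    exact (((hf.pow m).mul (hf.rr i)).weight_congr (by push_cast; ring)).char_congr
      ((pow_succ χ m).symm.trans hχ)
  choose M' hM' using fun i => hσ _ (hc i).toMF
  set C : ℕ → qAlg := fun i => toQ (one_mem_periods hTΓ) (hc i).toMF with hC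
  set C' : ℕ → qAlg := fun i => toQ (one_mem_periods hTΓ) (M' i) with hC'
  set PQ : qAlg := toQ one_mem_SL Delta1728 with hPQ
  set Φ := PowerSeries.map σ with hΦ
  have hΦinj : Function.Injective Φ := PowerSeries.map_injective σ σ.injective
  have hCC : ∀ i, qE (C' i) = Φ (qE (C i)) := fun i => hM' i
  have hdC : ∀ i, qE (dQ (C' i)) = Φ (qE (dQ (C i))) := by
    intro i
    rw [qE_dQ, qE_dQ, hCC, hΦ, map_theta]
  have hPP : qE PQ = Φ (qE PQ) := by
    obtain ⟨G, hG⟩ := Delta1728_mem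
    rw [qE_apply, hPQ, coe_toQ, ← hG]
    ext n
    simp [hΦ]
  have hdP : qE (dQ PQ) = Φ (qE (dQ PQ)) := by
    rw [qE_dQ, hΦ, map_theta, ← hΦ, ← hPP]
  have hrec : ∀ i : ℕ, (((12 : ℤ) * ((m + 1 : ℕ) : ℤ) : ℤ) : qAlg) * (C 0 * C (i + 1)) =
      (((m + 1 : ℕ) : ℤ) : qAlg) * (C 0 * (((12 : ℤ) : qAlg) * (PQ * dQ (C i)) -
      ((((m + 1 : ℕ) : ℤ) * k + 14 * i : ℤ) : qAlg) * (C i * dQ PQ))) -
      ((m : ℤ) : qAlg) * ((((12 : ℤ) : qAlg) * (PQ * dQ (C 0)) -
      ((((m + 1 : ℕ) : ℤ) * k : ℤ) : qAlg) * (C 0 * dQ PQ)) * C i) := by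
    intro i
    refine Subtype.ext (funext fun τ => ?_)
    have := recursion hf.holo k m i (rr f k i) (hf.rr i).holo τ
    exact this
  have hrec' : ∀ i : ℕ, (((12 : ℤ) * ((m + 1 : ℕ) : ℤ) : ℤ) : qAlg) * (C' 0 * C' (i + 1)) =
      (((m + 1 : ℕ) : ℤ) : qAlg) * (C' 0 * (((12 : ℤ) : qAlg) * (PQ * dQ (C' i)) -
      ((((m + 1 : ℕ) : ℤ) * k + 14 * i : ℤ) : qAlg) * (C' i * dQ PQ))) -
      ((m : ℤ) : qAlg) * ((((12 : ℤ) : qAlg) * (PQ * dQ (C' 0)) -
      ((((m + 1 : ℕ) : ℤ) * k : ℤ) : qAlg) * (C' 0 * dQ PQ)) * C' i) := by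
    intro i
    apply qE_injective
    have := congrArg (fun x => Φ (qE x)) (hrec i)
    simp only [map_mul, map_sub, map_intCast] at this ⊢
    simp only [hCC, hdC]
    rw [← hPP, ← hdP] at this
    exact this
  have hqC0 : qE (C 0) = (qExpansion 1 f) ^ (m + 1) := by
    have h1 : C 0 = (⟨f, hf.mem_qAlg hT⟩ : qAlg) ^ (m + 1) := by
      refine Subtype.ext ?_
      rw [pow_succ]
      rfl
    rw [h1, map_pow]
    rfl
  have hC'0 : C' 0 ≠ 0 := by
    intro h0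
    have h1 := hCC 0
    rw [h0, map_zero, eq_comm, map_eq_zero_iff _ hΦinj, map_eq_zero_iff _ qE_injective] at h1
    have h2 : f ^ m * f = 0 := congrArg Subtype.val h1
    rw [UpperHalfPlane.mul_eq_zero_iff (hf.holo.pow m) hf.holo] at h2
    rcases h2 with h2 | h2
    · apply hf0
      ext τ
      have := congrFun h2 τ
      by_contra hne
      exact pow_ne_zero m hne this
    · exact hf0 h2
  have hM'0 : (M' 0 : ℍ → ℂ) ≠ 0 := fun h => hC'0 (Subtype.ext h)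
  have hpi : (2 * Real.pi * Complex.I : ℂ) ≠ 0 := Complex.two_pi_I_ne_zero
  have hderiv : ∀ (F : ℍ → ℂ) (τ : ℍ),
      deriv (F ∘ ofComplex) (τ : ℂ) = (2 * Real.pi * Complex.I) * (D F τ) := by
    intro F τ
    rw [Derivative.normalizedDerivOfComplex, mul_inv_cancel_left₀ hpi]
  have hord := dvd_analyticOrderAt (m + 1) (Nat.succ_ne_zero m)
    (fun i => ((2 * Real.pi * Complex.I : ℂ) ^ i) • (M' i : ℍ → ℂ)) P
    (fun i => (((m + 1 : ℕ) : ℂ) * k + 14 * i) / 12)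
    (fun i => (ModularFormClass.holo (M' i)).const_smul _) P_mdiff P_ne_zero
    (by simpa using hM'0) (by
      intro i τ
      have h1 := congrFun (congrArg Subtype.val (hrec' i)) τ
      have h2 : (((12 : ℤ) * ((m + 1 : ℕ) : ℤ) : ℤ) : ℂ) * (M' 0 τ * M' (i + 1) τ) =
          (((m + 1 : ℕ) : ℤ) : ℂ) * (M' 0 τ * (((12 : ℤ) : ℂ) * (P τ * D (M' i) τ) -
          ((((m + 1 : ℕ) : ℤ) * k + 14 * i : ℤ) : ℂ) * (M' i τ * D P τ))) -
          ((m : ℤ) : ℂ) * ((((12 : ℤ) : ℂ) * (P τ * D (M' 0) τ) -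
          ((((m + 1 : ℕ) : ℤ) * k : ℤ) : ℂ) * (M' 0 τ * D P τ)) * M' i τ) := h1
      rw [hderiv, hderiv, hderiv,
        Derivative.normalizedDerivOfComplex_smul _ _ (ModularFormClass.holo (M' i)),
        Derivative.normalizedDerivOfComplex_smul _ _ (ModularFormClass.holo (M' 0))]
      simp only [Pi.smul_apply, smul_eq_mul, pow_zero, one_mul]
      have h3 : ((m : ℂ) + 1) ≠ 0 := by exact_mod_cast Nat.succ_ne_zero m
      push_cast at h2 ⊢
      rw [pow_succ]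
      field_simp
      linear_combination h2)
  have hw : (((m.succ : ℕ) : ℤ) * k + 14 * ((0 : ℕ) : ℤ)) = ((m.succ : ℕ) : ℤ) * k := by simp
  obtain ⟨g, hg, hgn⟩ := exists_pow_eq (m + 1) (Nat.succ_ne_zero m) (M' 0 : ℍ → ℂ)
    (ModularFormClass.holo (M' 0)) hM'0 (by simpa using hord)
  refine ⟨g, ModularForm.mcast hw (M' 0), hg, hgn, ?_, ?_⟩
  · intro h0
    apply hM'0
    exact congrArg (fun F : ModularForm (Γ : Subgroup (GL (Fin 2) ℝ)) (((m.succ : ℕ) : ℤ) * k) => (F : ℍ → ℂ)) h0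
  · rw [← hqC0]
    exact hM' 0

lemma isBoundedAtImInfty_of_pow {F : ℍ → ℂ} {n : ℕ} (hn : n ≠ 0)
    (h : IsBoundedAtImInfty (F ^ n)) : IsBoundedAtImInfty F := by
  rw [isBoundedAtImInfty_iff] at h ⊢
  obtain ⟨M, A, hMA⟩ := h
  refine ⟨max 1 M, A, fun z hz => ?_⟩
  have h1 := hMA z hz
  rw [Pi.pow_apply, norm_pow] at h1
  rcases le_or_gt ‖F z‖ 1 with h2 | h2
  · exact h2.trans (le_max_left _ _)
  · exact ((le_self_pow₀ h2.le hn).trans h1).trans (le_max_right _ _)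

lemma pow_slash_SL2 (F : ℍ → ℂ) (k : ℤ) (n : ℕ) (γ : SL(2, ℤ)) :
    (F ^ n) ∣[(n * k : ℤ)] γ = (F ∣[k] γ) ^ n := by
  induction n with
  | zero =>
    rw [pow_zero, pow_zero, Nat.cast_zero, zero_mul, ModularForm.is_invariant_one]
  | succ n ih =>
    rw [pow_succ, pow_succ, ← ih, ← mul_slash_SL2]
    congr 1
    push_cast
    ring

lemma qExpansion_pow_of_analytic {h : ℝ} {f : ℍ → ℂ}
    (hf : AnalyticAt ℂ (cuspFunction h f) 0) (n : ℕ) :
    AnalyticAt ℂ (cuspFunction h (f ^ n)) 0 ∧ qExpansion h (f ^ n) = (qExpansion h f) ^ n := by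
  induction n with
  | zero =>
    refine ⟨?_, ?_⟩
    · rw [pow_zero]
      have : cuspFunction h (1 : ℍ → ℂ) = 1 := by
        ext q
        rcases eq_or_ne q 0 with rfl | hq
        · rw [cuspFunction, Function.Periodic.cuspFunction_zero_eq_limUnder_nhds_ne]
          have : Function.Periodic.cuspFunction h ((1 : ℍ → ℂ) ∘ ofComplex) =ᶠ[𝓝[≠] 0]
              fun _ => 1 := by
            filter_upwards [self_mem_nhdsWithin] with q hq
            rw [Function.Periodic.cuspFunction_eq_of_nonzero _ _ hq]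
            simp
          rw [Filter.limUnder, Filter.map_congr this]
          exact (tendsto_const_nhds (x := (1 : ℂ)) (f := 𝓝[≠] (0 : ℂ))).limUnder_eq
        · rw [cuspFunction, Function.Periodic.cuspFunction_eq_of_nonzero _ _ hq]
          simp
      rw [this]
      exact analyticAt_const
    · rw [pow_zero, pow_zero, qExpansion_one]
  | succ n ih =>
    have h1 : cuspFunction h (f ^ n * f) = cuspFunction h (f ^ n) * cuspFunction h f :=
      cuspFunction_mul ih.1.continuousAt hf.continuousAt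
    refine ⟨?_, ?_⟩
    · rw [pow_succ, h1]
      exact ih.1.mul hf
    · rw [pow_succ, pow_succ, qExpansion_mul ih.1 hf, ih.2]

/-- A function whose `n`-th power has `q`-expansion an `n`-th power, and which is multiplied by
an `n`-th root of unity under translation. -/
lemma exists_root_expansion {g : ℍ → ℂ} (hg : MDiff g) (hb : IsBoundedAtImInfty g) {n : ℕ}
    (hn : n ≠ 0) {ζ : ℂ} (hζ : ζ ^ n = 1) (hgT : ∀ τ : ℍ, g ((1 : ℝ) +ᵥ τ) = ζ * g τ)
    (H : qAlg) (hgH : ∀ τ, g τ ^ n = (H : ℍ → ℂ) τ) (A : PowerSeries ℂ) (hA : qE H = A ^ n) :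
    ∃ c : ℂ, c ^ n = 1 ∧ (∀ τ : ℍ, g ((1 : ℝ) +ᵥ τ) = g τ) ∧ qExpansion 1 (c • g) = A := by
  have hn0 : (0 : ℝ) < (n : ℝ) := by exact_mod_cast Nat.pos_of_ne_zero hn
  -- `g` has period `n`
  have hgj : ∀ (j : ℕ) (τ : ℍ), g ((j : ℝ) +ᵥ τ) = ζ ^ j * g τ := by
    intro j
    induction j with
    | zero => intro τ; simp
    | succ j ih =>
      intro τ
      have : (((j + 1 : ℕ) : ℝ) +ᵥ τ) = (j : ℝ) +ᵥ ((1 : ℝ) +ᵥ τ) := by
        rw [vadd_vadd]
        push_cast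
        rfl
      rw [this, ih, hgT, pow_succ, mul_assoc]
  have hper : Function.Periodic (g ∘ ofComplex) ((n : ℝ) : ℂ) :=
    periodic_of_vadd fun τ => by rw [hgj, hζ, one_mul]
  have han : AnalyticAt ℂ (cuspFunction n g) 0 := analyticAt_cuspFunction_zero hn0 hper hg hb
  obtain ⟨han', hpow⟩ := qExpansion_pow_of_analytic han n
  have hgn : g ^ n = (H : ℍ → ℂ) := funext hgH
  rw [hgn] at han' hpow
  have hqn : ∀ τ : ℍ, Function.Periodic.qParam n τ ^ n = Function.Periodic.qParam 1 τ := by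
    intro τ
    rw [Function.Periodic.qParam, Function.Periodic.qParam, ← Complex.exp_nat_mul]
    congr 1
    have : (n : ℂ) ≠ 0 := by exact_mod_cast hn
    push_cast
    field_simp
  have hexp : ∀ (B : PowerSeries ℂ) (x : ℂ) (τ : ℍ),
      HasSum (fun m : ℕ => (PowerSeries.expand n hn B).coeff m •
        Function.Periodic.qParam n τ ^ m) x ↔
      HasSum (fun m : ℕ => B.coeff m • Function.Periodic.qParam 1 τ ^ m) x := by
    intro B x τ
    have hinj : Function.Injective (fun m : ℕ => n * m) := fun a b hab =>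
      Nat.eq_of_mul_eq_mul_left (Nat.pos_of_ne_zero hn) hab
    rw [← hinj.hasSum_iff]
    · have e : ((fun m : ℕ => (PowerSeries.expand n hn B).coeff m •
          Function.Periodic.qParam n τ ^ m) ∘ fun m : ℕ => n * m) =
          fun m : ℕ => B.coeff m • Function.Periodic.qParam 1 τ ^ m := by
        funext m
        simp only [Function.comp_apply]
        rw [PowerSeries.coeff_expand_mul, pow_mul, hqn]
      rw [e]
    · intro m hm
      rw [PowerSeries.coeff_expand_of_not_dvd n hn, zero_smul]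
      rintro ⟨r, rfl⟩
      exact hm ⟨r, rfl⟩
  have hHsum : ∀ τ : ℍ, HasSum (fun m : ℕ => (qE H).coeff m •
      Function.Periodic.qParam 1 τ ^ m) ((H : ℍ → ℂ) τ) :=
    hasSum_qExpansion one_pos (by simpa using H.2.1) H.2.2.1 H.2.2.2
  have hqH : qExpansion n (H : ℍ → ℂ) = PowerSeries.expand n hn (qE H) := by
    ext m
    exact coeff_unique hn0 han' (fun τ => (hexp _ _ τ).mpr (hHsum τ)) m
  rw [hqH, hA, map_pow] at hpow
  obtain ⟨z, hz, hzA⟩ := powerSeries_exists_smul_eq_of_pow_eq hn hpow.symm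
  have hz0 : z ≠ 0 := by
    rintro rfl
    rw [zero_pow hn] at hz
    exact zero_ne_one hz
  have hgsum : ∀ τ : ℍ, HasSum (fun m : ℕ => A.coeff m • Function.Periodic.qParam 1 τ ^ m)
      (z⁻¹ * g τ) := by
    intro τ
    rw [← hexp]
    have h1 := (hasSum_qExpansion hn0 hper hg hb τ).mul_left z⁻¹
    rw [hzA] at h1
    have e : (fun m : ℕ => (PowerSeries.expand n hn A).coeff m •
        Function.Periodic.qParam n τ ^ m) = fun m : ℕ =>
        z⁻¹ * ((z • PowerSeries.expand n hn A).coeff m • Function.Periodic.qParam n τ ^ m) := by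
      funext m
      simp only [PowerSeries.coeff_smul, smul_eq_mul]
      field_simp
    rw [e]
    exact h1
  have hper1 : ∀ τ : ℍ, g ((1 : ℝ) +ᵥ τ) = g τ := by
    intro τ
    have h1 := hgsum ((1 : ℝ) +ᵥ τ)
    have h2 : Function.Periodic.qParam 1 (((1 : ℝ) +ᵥ τ : ℍ) : ℂ) =
        Function.Periodic.qParam 1 τ := by
      rw [Function.Periodic.qParam, Function.Periodic.qParam, Complex.exp_eq_exp_iff_exists_int]
      refine ⟨1, ?_⟩
      rw [coe_vadd]
      push_cast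
      ring
    rw [h2] at h1
    exact mul_left_cancel₀ (inv_ne_zero hz0) (h1.unique (hgsum τ))
  refine ⟨z⁻¹, by rw [inv_pow, hz, inv_one], hper1, ?_⟩
  ext m
  have hmem : z⁻¹ • g ∈ qAlg := by
    have h1 : ∀ τ : ℍ, (z⁻¹ • g) ((1 : ℝ) +ᵥ τ) = (z⁻¹ • g) τ := fun τ => by
      simp only [Pi.smul_apply, hper1 τ]
    have h2 := periodic_of_vadd h1
    rw [Complex.ofReal_one] at h2
    exact ⟨h2, hg.const_smul _, hb.smul _⟩
  exact coeff_unique one_pos (qAlg_analytic ⟨_, hmem⟩) hgsum m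

lemma eq_of_smul_eq_smul {g : ℍ → ℂ} (hg0 : g ≠ 0) {a b : ℂ} (h : a • g = b • g) : a = b := by
  obtain ⟨τ, hτ⟩ := Function.ne_iff.mp hg0
  have := congrFun h τ
  simp only [Pi.smul_apply, smul_eq_mul] at this
  exact mul_right_cancel₀ hτ this

/-- **Galois conjugates of forms with character.** -/
theorem CharForm.exists_conj [Γ.FiniteIndex] {χ : Γ →* ℂˣ} {k : ℤ} {f : ℍ → ℂ}
    (hf : CharForm Γ χ k f) {n : ℕ} (hn : n ≠ 0) (hχ : χ ^ n = 1)
    {hTΓ : ModularGroup.T ∈ Γ} (hT : χ ⟨ModularGroup.T, hTΓ⟩ = 1) {σ : ℂ →+* ℂ}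
    (hσ : ConjStable Γ σ) :
    ∃ (χ' : Γ →* ℂˣ) (f' : ℍ → ℂ), χ' ^ n = 1 ∧ χ' ⟨ModularGroup.T, hTΓ⟩ = 1 ∧
      CharForm Γ χ' k f' ∧
      qExpansion 1 f' = (qExpansion 1 f).map σ := by
  by_cases hf0 : f = 0
  · refine ⟨1, 0, by ext γ; simp, rfl, CharForm.zero 1 k, ?_⟩
    rw [hf0, qExpansion_zero, map_zero]
  obtain ⟨g, H, hg, hgH, hH0, hqH⟩ := exists_conj_root hf hf0 hn hχ hT hσ
  have hgn : g ^ n = (H : ℍ → ℂ) := funext hgH
  have hg0 : g ≠ 0 := by
    rintro rfl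
    apply hH0
    ext τ
    rw [← hgH, Pi.zero_apply, zero_pow hn]
    rfl
  have hgn0 : g ^ n ≠ 0 := by
    obtain ⟨τ, hτ⟩ := Function.ne_iff.mp hg0
    exact Function.ne_iff.mpr ⟨τ, pow_ne_zero n hτ⟩
  have hHc := CharForm.ofMF H
  have hbdd : ∀ γ : SL(2, ℤ), IsBoundedAtImInfty (g ∣[k] γ) := by
    intro γ
    apply isBoundedAtImInfty_of_pow hn
    rw [← pow_slash_SL2, hgn]
    exact hHc.bdd γ
  have hpow : ∀ γ : Γ, (g ∣[k] (γ : SL(2, ℤ))) ^ n = g ^ n := by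
    intro γ
    rw [← pow_slash_SL2, hgn, hHc.slash, MonoidHom.one_apply, Units.val_one, one_smul]
  obtain ⟨χ', hχ'⟩ := exists_character (Γ := Γ) hg0 (k := k) (fun γ => by
    obtain ⟨ζ, hζ, h⟩ := exists_smul_eq_of_pow_eq (hg.slash k (mapGL ℝ (γ : SL(2, ℤ)))) hg hn
      (hpow γ)
    refine ⟨ζ, ?_, h⟩
    rintro rfl
    rw [zero_pow hn] at hζ
    exact zero_ne_one hζ)
  have hχn : ∀ γ : Γ, ((χ' γ : ℂˣ) : ℂ) ^ n = 1 := by
    intro γ
    have h1 := hpow γ
    rw [hχ' γ, smul_pow] at h1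
    exact eq_of_smul_eq_smul hgn0 (h1.trans (one_smul _ _).symm)
  have hb : IsBoundedAtImInfty g := by
    have := hbdd 1
    rwa [SlashAction.slash_one] at this
  have hgT : ∀ τ : ℍ, g ((1 : ℝ) +ᵥ τ) = ((χ' ⟨ModularGroup.T, hTΓ⟩ : ℂˣ) : ℂ) * g τ := by
    intro τ
    rw [← slash_T_apply g k τ]
    exact congrFun (hχ' ⟨ModularGroup.T, hTΓ⟩) τ
  obtain ⟨c, hc, hper, hq⟩ := exists_root_expansion hg hb hn (hχn ⟨ModularGroup.T, hTΓ⟩) hgT
    (toQ (one_mem_periods hTΓ) H) hgH ((qExpansion 1 f).map σ) (by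
      rw [← map_pow]
      exact hqH)
  refine ⟨χ', c • g, ?_, ?_, ?_, hq⟩
  · ext γ
    exact hχn γ
  · ext
    rw [Units.val_one]
    apply eq_of_smul_eq_smul hg0
    rw [one_smul]
    ext τ
    rw [Pi.smul_apply, smul_eq_mul, ← hgT, hper]
  · exact CharForm.smul c ⟨hg, hχ', hbdd⟩

end Fermat.Agent.EisChar
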