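import Fermat.Agent.EisChar.Series
import Fermat.Agent.EisChar.Sigma
import Fermat.Agent.IntStruct.AutC

/-!
# Forms with character and algebraic `q`-expansion

For every character `χ` of finite order of a finite index subgroup `Γ ∋ T` of `SL(2, ℤ)` whose
modular forms are stable under the automorphisms of `ℂ`, there are nonzero forms with character
`χ` with algebraic `q`-expansion.
-/

set_option autoImplicit false

open UpperHalfPlane ModularForm Matrix.SpecialLinearGroup CongruenceSubgroup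
open scoped MatrixGroups Manifold ModularForm Topology
open Fermat.Agent.IntStruct

noncomputable section

namespace Fermat.Agent.EisChar

variable {Γ : Subgroup SL(2, ℤ)}

/-! ### Bound for the order of vanishing -/

lemma X_pow_dvd_iff' {A : PowerSeries ℂ} {B : ℕ} :
    (PowerSeries.X ^ (B + 1) ∣ A) ↔ ∀ j ≤ B, A.coeff j = 0 := by
  rw [PowerSeries.X_pow_dvd_iff]
  exact forall_congr' fun j => by rw [Nat.lt_succ_iff]

theorem exists_order_bound [Γ.FiniteIndex] (hTΓ : ModularGroup.T ∈ Γ) (k : ℤ) :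
    ∃ B : ℕ, ∀ f : ModularForm (Γ : Subgroup (GL (Fin 2) ℝ)) k,
      (∀ j ≤ B, (qExpansion 1 f).coeff j = 0) → (f : ℍ → ℂ) = 0 := by
  classical
  refine ⟨(k * (Fintype.card (SL(2, ℤ) ⧸ Γ) : ℤ) - k * ((0 : ℕ) : ℤ)).toNat / 12, fun f hf => ?_⟩
  by_contra hf0
  obtain ⟨h, hh⟩ := exists_levelOne_coeff (charP f) (charP_transform f) 0
  -- the product of the other conjugates
  set R : holBdd := ∏ q ∈ Finset.univ.erase ((1 : SL(2, ℤ)) : SL(2, ℤ) ⧸ Γ), (-cjB f q) with hR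
  have hprod : (charP f).coeff 0 = (-cjB f ((1 : SL(2, ℤ)) : SL(2, ℤ) ⧸ Γ)) * R := by
    rw [hR, Finset.mul_prod_erase Finset.univ (fun q => -cjB f q) (Finset.mem_univ _), charP,
      Polynomial.coeff_zero_eq_eval_zero, Polynomial.eval_prod]
    simp
  have hcj0 : ∀ q : SL(2, ℤ) ⧸ Γ, (cjB f q : ℍ → ℂ) ≠ 0 := by
    intro q
    induction q using QuotientGroup.induction_on with
    | H g =>
      rw [coe_cjB, cj_mk, Ne, SlashAction.slash_eq_zero_iff]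
      exact hf0
  have hf1 : (cjB f ((1 : SL(2, ℤ)) : SL(2, ℤ) ⧸ Γ) : ℍ → ℂ) = f := cjB_one f
  have hh' : ∀ τ, h τ = -(f τ) * (R : ℍ → ℂ) τ := by
    intro τ
    have h1 := congrFun hh τ
    rw [hprod] at h1
    rw [h1]
    have : ((-cjB f ((1 : SL(2, ℤ)) : SL(2, ℤ) ⧸ Γ) * R : holBdd) : ℍ → ℂ) τ =
      -((cjB f ((1 : SL(2, ℤ)) : SL(2, ℤ) ⧸ Γ) : ℍ → ℂ) τ) * (R : ℍ → ℂ) τ := rfl
    rw [this, hf1]
  have hR0 : (R : ℍ → ℂ) ≠ 0 := by
    have h1 : (R : ℍ → ℂ) = ∏ q ∈ Finset.univ.erase ((1 : SL(2, ℤ)) : SL(2, ℤ) ⧸ Γ),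
        (-(cjB f q : ℍ → ℂ)) := by
      rw [hR]
      simp
    rw [h1, Ne, UpperHalfPlane.prod_eq_zero_iff (fun q _ => (cjB f q).2.1.neg)]
    rintro ⟨q, -, hq⟩
    exact hcj0 q (neg_eq_zero.mp hq)
  have hh0 : (h : ℍ → ℂ) ≠ 0 := by
    intro h0
    have h1 : (f : ℍ → ℂ) * (R : ℍ → ℂ) = 0 := by
      ext τ
      have := congrFun h0 τ
      rw [hh' τ] at this
      simpa using this
    rw [UpperHalfPlane.mul_eq_zero_iff (ModularFormClass.holo f) R.2.1] at h1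
    exact h1.elim hf0 hR0
  -- periodicity of `R`
  set F := toQ (one_mem_periods hTΓ) f with hF
  set H := toQ one_mem_SL h with hH
  have hper : ∀ τ : ℍ, (R : ℍ → ℂ) ((1 : ℝ) +ᵥ τ) = (R : ℍ → ℂ) τ := by
    have hRT : MDiff ((R : ℍ → ℂ) ∣[(0 : ℤ)] ModularGroup.T) :=
      R.2.1.slash 0 (mapGL ℝ ModularGroup.T)
    have h1 : (f : ℍ → ℂ) * ((R : ℍ → ℂ) ∣[(0 : ℤ)] ModularGroup.T - (R : ℍ → ℂ)) = 0 := by
      ext τ
      have e1 : f ((1 : ℝ) +ᵥ τ) = f τ := by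
        rw [← slash_T_apply f k τ]
        exact congrFun (slash_eq_self f _ hTΓ) τ
      have e2 : h ((1 : ℝ) +ᵥ τ) = h τ := by
        rw [← slash_T_apply h _ τ]
        exact congrFun (SlashInvariantFormClass.slash_action_eq h _ ⟨ModularGroup.T, rfl⟩) τ
      rw [hh', hh', e1] at e2
      simp only [Pi.mul_apply, Pi.sub_apply, slash_T_apply, Pi.zero_apply]
      linear_combination -e2
    rw [UpperHalfPlane.mul_eq_zero_iff (ModularFormClass.holo f) (hRT.sub R.2.1)] at h1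
    intro τ
    have h2 := congrFun (sub_eq_zero.mp (h1.resolve_left hf0)) τ
    rwa [slash_T_apply] at h2
  have hRmem : (R : ℍ → ℂ) ∈ qAlg := by
    have h2 := periodic_of_vadd hper
    rw [Complex.ofReal_one] at h2
    exact ⟨h2, R.2.1, R.2.2⟩
  have hHF : H = -(F * ⟨(R : ℍ → ℂ), hRmem⟩) := by
    refine Subtype.ext (funext fun τ => ?_)
    have := hh' τ
    rw [neg_mul] at this
    exact this
  have hdvd : PowerSeries.X ^ ((k * (Fintype.card (SL(2, ℤ) ⧸ Γ) : ℤ) -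
      k * ((0 : ℕ) : ℤ)).toNat / 12 + 1) ∣ qE H := by
    rw [hHF, map_neg, map_mul, dvd_neg]
    exact Dvd.dvd.mul_right (X_pow_dvd_iff'.mpr hf) _
  have hord : ((((k * (Fintype.card (SL(2, ℤ) ⧸ Γ) : ℤ) - k * ((0 : ℕ) : ℤ)).toNat / 12 : ℕ)) : ℕ∞)
      < (qExpansion 1 h).order := by
    have h1 := PowerSeries.nat_le_order _ _ (PowerSeries.X_pow_dvd_iff.mp hdvd)
    refine lt_of_lt_of_le ?_ h1
    exact_mod_cast Nat.lt_succ_self _
  have := ModularForm.sturm_bound_levelOne hord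
  rw [this] at hh0
  exact hh0 rfl

theorem CharForm.exists_order_bound [Γ.FiniteIndex] (hTΓ : ModularGroup.T ∈ Γ) (k : ℤ) {n : ℕ}
    (hn : n ≠ 0) :
    ∃ B : ℕ, ∀ (χ : Γ →* ℂˣ) (f : ℍ → ℂ), CharForm Γ χ k f → χ ^ n = 1 →
      χ ⟨ModularGroup.T, hTΓ⟩ = 1 → (∀ j ≤ B, (qExpansion 1 f).coeff j = 0) → f = 0 := by
  obtain ⟨B, hB⟩ := EisChar.exists_order_bound hTΓ ((n : ℤ) * k)
  refine ⟨B, fun χ f hf hχ hT h => ?_⟩
  have h1 := hB ((hf.pow n).char_congr hχ).toMF (by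
    rw [← X_pow_dvd_iff', CharForm.coe_toMF]
    have h2 : qExpansion 1 (f ^ n) = (qExpansion 1 f) ^ n :=
      (qExpansion_pow_of_analytic (qAlg_analytic ⟨f, hf.mem_qAlg hT⟩) n).2
    rw [h2]
    exact dvd_pow (X_pow_dvd_iff'.mpr h) hn)
  rw [CharForm.coe_toMF] at h1
  ext τ
  have := congrFun h1 τ
  by_contra hne
  exact pow_ne_zero n hne this

lemma CharForm.char_unique {χ ψ : Γ →* ℂˣ} {k : ℤ} {f : ℍ → ℂ} (hf : CharForm Γ χ k f)
    (hf' : CharForm Γ ψ k f) (hf0 : f ≠ 0) : χ = ψ := by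
  ext γ
  exact eq_of_smul_eq_smul hf0 ((hf.slash γ).symm.trans (hf'.slash γ))

lemma qExpansion_ne_zero_of_mem {f : ℍ → ℂ} (hf : f ∈ qAlg) (hf0 : f ≠ 0) :
    qExpansion 1 f ≠ 0 := by
  intro h
  apply hf0
  have h1 : qE ⟨f, hf⟩ = 0 := h
  rw [map_eq_zero_iff _ qE_injective] at h1
  exact congrArg Subtype.val h1

/-- The character of the conjugate form only depends on the character of the form. -/
theorem CharForm.same_char [Γ.FiniteIndex] {hTΓ : ModularGroup.T ∈ Γ} {n : ℕ} (hn : n ≠ 0)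
    {σ : ℂ →+* ℂ} (hσ : ConjStable Γ σ) {χ χ₁ χ₂ : Γ →* ℂˣ} {k l : ℤ} {f₁ f₂ f₁' f₂' : ℍ → ℂ}
    (hf₁ : CharForm Γ χ k f₁) (hf₂ : CharForm Γ χ l f₂)
    (hf₁' : CharForm Γ χ₁ k f₁') (hf₂' : CharForm Γ χ₂ l f₂')
    (hχ : χ ^ n = 1) (hχ₁ : χ₁ ^ n = 1)
    (hT : χ ⟨ModularGroup.T, hTΓ⟩ = 1) (hT₁ : χ₁ ⟨ModularGroup.T, hTΓ⟩ = 1)
    (hT₂ : χ₂ ⟨ModularGroup.T, hTΓ⟩ = 1) (h₁ : f₁ ≠ 0) (h₂ : f₂ ≠ 0)
    (hq₁ : qExpansion 1 f₁' = (qExpansion 1 f₁).map σ)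
    (hq₂ : qExpansion 1 f₂' = (qExpansion 1 f₂).map σ) : χ₁ = χ₂ := by
  obtain ⟨m, rfl⟩ := Nat.exists_eq_succ_of_ne_zero hn
  have hinj : Function.Injective (PowerSeries.map σ) := PowerSeries.map_injective σ σ.injective
  set A₁ : qAlg := ⟨f₁, hf₁.mem_qAlg hT⟩ with hA₁
  set A₂ : qAlg := ⟨f₂, hf₂.mem_qAlg hT⟩ with hA₂
  set A₁' : qAlg := ⟨f₁', hf₁'.mem_qAlg hT₁⟩ with hA₁'
  set A₂' : qAlg := ⟨f₂', hf₂'.mem_qAlg hT₂⟩ with hA₂'
  have hne : ∀ {f f' : ℍ → ℂ} (_ : f ∈ qAlg) (_ : f ≠ 0)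
      (_ : qExpansion 1 f' = (qExpansion 1 f).map σ), f' ≠ 0 := by
    intro f f' hm h0 hq h0'
    rw [h0', qExpansion_zero, eq_comm, map_eq_zero_iff _ hinj] at hq
    exact qExpansion_ne_zero_of_mem hm h0 hq
  have h₁' : f₁' ≠ 0 := hne A₁.2 h₁ hq₁
  have h₂' : f₂' ≠ 0 := hne A₂.2 h₂ hq₂
  have hF : CharForm Γ 1 ((m : ℤ) * k + l) (f₁ ^ m * f₂) :=
    ((hf₁.pow m).mul hf₂).char_congr ((pow_succ χ m).symm.trans hχ)
  obtain ⟨M', hM'⟩ := hσ _ hF.toMF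
  have hG : CharForm Γ (χ₁ ^ m * χ₂) ((m : ℤ) * k + l) (f₁' ^ m * f₂') := (hf₁'.pow m).mul hf₂'
  have hqq : A₁' ^ m * A₂' = toQ (one_mem_periods hTΓ) M' := by
    apply qE_injective
    have e1 : qE (toQ (one_mem_periods hTΓ) M') = (qE (A₁ ^ m * A₂)).map σ := hM'
    rw [e1, map_mul, map_mul, map_pow, map_pow, map_mul, map_pow]
    congr 1
    · congr 1
  have hcoe : f₁' ^ m * f₂' = (M' : ℍ → ℂ) := congrArg Subtype.val hqq
  have hG' : CharForm Γ 1 ((m : ℤ) * k + l) (f₁' ^ m * f₂') := by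
    rw [hcoe]
    exact CharForm.ofMF M'
  have hG0 : f₁' ^ m * f₂' ≠ 0 := by
    rw [Ne, UpperHalfPlane.mul_eq_zero_iff (hf₁'.holo.pow m) hf₂'.holo]
    rintro (h | h)
    · apply h₁'
      ext τ
      have := congrFun h τ
      by_contra hne
      exact pow_ne_zero m hne this
    · exact h₂' h
  have hc := hG.char_unique hG' hG0
  have hc' : χ₁ ^ m * χ₁ = 1 := (pow_succ χ₁ m).symm.trans hχ₁
  ext γ
  have e1 := DFunLike.congr_fun hc γ
  have e2 := DFunLike.congr_fun hc' γ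
  rw [MonoidHom.mul_apply] at e1 e2
  rw [← e2] at e1
  rw [mul_left_cancel e1]

/-! ### Finiteness -/

lemma finite_characters [Γ.FiniteIndex] {n : ℕ} (hn : n ≠ 0) :
    Finite {χ : Γ →* ℂˣ // χ ^ n = 1} := by
  have : NeZero n := ⟨hn⟩
  have hSL : Group.FG SL(2, ℤ) := Group.fg_iff.mpr ⟨{ModularGroup.S, ModularGroup.T},
    _root_.SpecialLinearGroup.SL2Z_generators.symm ▸ rfl, Set.toFinite _⟩
  have hfg : Group.FG Γ := Subgroup.fg_of_index_ne_zero Γ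
  obtain ⟨S, hS, hSfin⟩ := Group.fg_iff.mp hfg
  have : Finite S := hSfin
  let Φ : {χ : Γ →* ℂˣ // χ ^ n = 1} → (S → rootsOfUnity n ℂ) := fun χ s =>
    ⟨χ.1 s, by
      rw [mem_rootsOfUnity]
      exact DFunLike.congr_fun χ.2 (s : Γ)⟩
  refine Finite.of_injective Φ ?_
  intro χ ψ h
  apply Subtype.ext
  refine MonoidHom.eq_of_eqOn_dense hS ?_
  intro s hs
  have := congrFun h ⟨s, hs⟩
  exact congrArg Subtype.val this

lemma isAlgebraic_of_finite_orbit {z : ℂ}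
    (h : (Set.range fun σ : ℂ ≃+* ℂ => σ z).Finite) : IsAlgebraic ℚ z := by
  classical
  set S := h.toFinset with hS
  have hmem : ∀ w, w ∈ S ↔ ∃ σ : ℂ ≃+* ℂ, σ z = w := by
    intro w
    rw [hS, Set.Finite.mem_toFinset]
    rfl
  set p : Polynomial ℂ := ∏ w ∈ S, (Polynomial.X - Polynomial.C w) with hp
  have hmap : ∀ σ : ℂ ≃+* ℂ, p.map (σ : ℂ →+* ℂ) = p := by
    intro σ
    rw [hp, Polynomial.map_prod]
    simp only [Polynomial.map_sub, Polynomial.map_X, Polynomial.map_C]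
    refine Finset.prod_bij (fun w _ => σ w) ?_ ?_ ?_ ?_
    · intro w hw
      obtain ⟨τ, rfl⟩ := (hmem w).mp hw
      exact (hmem _).mpr ⟨τ.trans σ, rfl⟩
    · intro a _ b _ hab
      exact σ.injective hab
    · intro w hw
      obtain ⟨τ, rfl⟩ := (hmem w).mp hw
      exact ⟨σ.symm (τ z), (hmem _).mpr ⟨τ.trans σ.symm, rfl⟩, σ.apply_symm_apply _⟩
    · intro w _
      rfl
  have hrat : ∀ i, ∃ r : ℚ, (r : ℂ) = p.coeff i := by
    intro i
    apply exists_rat_of_forall_ringEquiv_fixed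
    intro σ
    have := congrArg (fun q => Polynomial.coeff q i) (hmap σ)
    simpa using this
  have hlift : p ∈ Polynomial.lifts (algebraMap ℚ ℂ) := by
    rw [Polynomial.lifts_iff_coeff_lifts]
    intro i
    obtain ⟨r, hr⟩ := hrat i
    exact ⟨r, by simpa using hr⟩
  obtain ⟨q, hq⟩ := (Polynomial.mem_lifts _).mp hlift
  refine ⟨q, ?_, ?_⟩
  · rintro rfl
    rw [Polynomial.map_zero] at hq
    have : p.Monic := Polynomial.monic_prod_of_monic _ _ fun w _ => Polynomial.monic_X_sub_C w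
    exact this.ne_zero hq.symm
  · rw [Polynomial.aeval_def, ← Polynomial.eval_map, hq, hp, Polynomial.eval_prod]
    refine Finset.prod_eq_zero ((hmem z).mpr ⟨RingEquiv.refl ℂ, rfl⟩) ?_
    simp

/-! ### The main theorem -/

/-- **Descent to algebraic coefficients.** If there is a nonzero form of weight `k` with a
character `χ` of finite order, then there is one with algebraic `q`-expansion coefficients.
Moreover it can be chosen so that it is equal to each of its conjugates with the same character. -/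
theorem CharForm.exists_algebraic' [Γ.FiniteIndex] {hTΓ : ModularGroup.T ∈ Γ}
    (hσ : ∀ σ : ℂ ≃+* ℂ, ConjStable Γ (σ : ℂ →+* ℂ)) {χ : Γ →* ℂˣ} {k : ℤ} {f : ℍ → ℂ}
    (hf : CharForm Γ χ k f) (hf0 : f ≠ 0) {n : ℕ} (hn : n ≠ 0) (hχ : χ ^ n = 1)
    (hT : χ ⟨ModularGroup.T, hTΓ⟩ = 1) :
    ∃ f' : ℍ → ℂ, f' ≠ 0 ∧ CharForm Γ χ k f' ∧
      (∀ m, IsAlgebraic ℚ ((qExpansion 1 f').coeff m)) ∧
      ∀ (σ : ℂ ≃+* ℂ) (f'' : ℍ → ℂ), CharForm Γ χ k f'' →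
        qExpansion 1 f'' = (qExpansion 1 f').map (σ : ℂ →+* ℂ) → f'' = f' := by
  classical
  obtain ⟨B, hB⟩ := CharForm.exists_order_bound hTΓ k hn
  -- a form with maximal order of vanishing
  let Q : ℕ → Prop := fun r => ∃ f : ℍ → ℂ, f ≠ 0 ∧ CharForm Γ χ k f ∧
    ∀ j < r, (qExpansion 1 f).coeff j = 0
  have hQ0 : Q 0 := ⟨f, hf0, hf, fun j hj => absurd hj (Nat.not_lt_zero j)⟩
  have hQB : ∀ r, Q r → r ≤ B := by
    rintro r ⟨f, hf0, hf, hr⟩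
    by_contra hlt
    exact hf0 (hB χ f hf hχ hT fun j hj => hr j (by omega))
  set r := Nat.findGreatest Q B with hr
  have hQr : Q r := Nat.findGreatest_spec (Nat.zero_le B) hQ0
  have hQr1 : ¬ Q (r + 1) := fun h =>
    Nat.findGreatest_is_greatest (Nat.lt_succ_self r) (hQB _ h) h
  obtain ⟨f₁, hf₁0, hf₁, hf₁r⟩ := hQr
  have hc0 : (qExpansion 1 f₁).coeff r ≠ 0 := by
    intro h
    apply hQr1
    refine ⟨f₁, hf₁0, hf₁, fun j hj => ?_⟩
    rcases Nat.lt_succ_iff_lt_or_eq.mp hj with h' | h'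
    · exact hf₁r j h'
    · rw [h', h]
  set c := (qExpansion 1 f₁).coeff r with hc
  set f₀ : ℍ → ℂ := c⁻¹ • f₁ with hf₀
  have hf₀c : CharForm Γ χ k f₀ := hf₁.smul c⁻¹
  have hf₀0 : f₀ ≠ 0 := smul_ne_zero (inv_ne_zero hc0) hf₁0
  have hq₀ : qExpansion 1 f₀ = c⁻¹ • qExpansion 1 f₁ :=
    qExpansion_smul (qAlg_analytic ⟨f₁, hf₁.mem_qAlg hT⟩) c⁻¹
  have hf₀r : ∀ j < r, (qExpansion 1 f₀).coeff j = 0 := by
    intro j hj
    rw [hq₀, PowerSeries.coeff_smul, hf₁r j hj, smul_zero]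
  have hf₀1 : (qExpansion 1 f₀).coeff r = 1 := by
    rw [hq₀, PowerSeries.coeff_smul, smul_eq_mul, inv_mul_cancel₀ hc0]
  -- the conjugates
  choose χ' f' hχ' hT' hf' hq' using fun σ : ℂ ≃+* ℂ =>
    hf₀c.exists_conj hn hχ hT (hσ σ)
  have hf'0 : ∀ σ, f' σ ≠ 0 := by
    intro σ h0
    have h1 := hq' σ
    rw [h0, qExpansion_zero, eq_comm, map_eq_zero_iff _
      (PowerSeries.map_injective _ (σ : ℂ →+* ℂ).injective)] at h1
    exact qExpansion_ne_zero_of_mem (hf₀c.mem_qAlg hT) hf₀0 h1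
  have hsymm : ∀ (σ : ℂ ≃+* ℂ) (A : PowerSeries ℂ),
      (A.map (σ : ℂ →+* ℂ)).map (σ.symm : ℂ →+* ℂ) = A := by
    intro σ A
    ext m
    simp
  have hkey : ∀ σ τ : ℂ ≃+* ℂ, χ' σ = χ' τ → f' σ = f' τ := by
    intro σ τ hστ
    by_contra hne
    set w := f' σ - f' τ with hw
    have hw0 : w ≠ 0 := sub_ne_zero.mpr hne
    have hwc : CharForm Γ (χ' σ) k w := (hf' σ).sub ((hf' τ).char_congr hστ.symm)
    have hqw : qExpansion 1 w = qExpansion 1 (f' σ) - qExpansion 1 (f' τ) :=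
      qExpansion_sub (qAlg_analytic ⟨_, (hf' σ).mem_qAlg (hT' σ)⟩)
        (qAlg_analytic ⟨_, (hf' τ).mem_qAlg (hT' τ)⟩)
    have hwr : ∀ j < r + 1, (qExpansion 1 w).coeff j = 0 := by
      intro j hj
      rw [hqw, map_sub, hq' σ, hq' τ, PowerSeries.coeff_map, PowerSeries.coeff_map]
      rcases Nat.lt_succ_iff_lt_or_eq.mp hj with h' | h'
      · rw [hf₀r j h', map_zero, map_zero, sub_zero]
      · rw [h', hf₀1, map_one, map_one, sub_self]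
    obtain ⟨χ'', w'', hχ'', hT'', hw'', hqw''⟩ :=
      hwc.exists_conj hn (hχ' σ) (hT' σ) (hσ σ.symm)
    have hsame := CharForm.same_char hn (hσ σ.symm) (hf' σ) hwc hf₀c hw'' (hχ' σ) hχ
      (hT' σ) hT hT'' (hf'0 σ) hw0 (by rw [hq' σ, hsymm]) hqw''
    apply hQr1
    refine ⟨w'', ?_, hw''.char_congr hsame.symm, ?_⟩
    · intro h0
      rw [h0, qExpansion_zero, eq_comm, map_eq_zero_iff _
        (PowerSeries.map_injective _ (σ.symm : ℂ →+* ℂ).injective)] at hqw''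
      exact qExpansion_ne_zero_of_mem (hwc.mem_qAlg (hT' σ)) hw0 hqw''
    · intro j hj
      rw [hqw'', PowerSeries.coeff_map, hwr j hj, map_zero]
  have hfin : Finite {χ : Γ →* ℂˣ // χ ^ n = 1} := finite_characters hn
  refine ⟨f₀, hf₀0, hf₀c, fun m => ?_, ?_⟩
  swap
  · intro σ f'' hf'' hq''
    by_contra hne
    apply hQr1
    refine ⟨f'' - f₀, sub_ne_zero.mpr hne, hf''.sub hf₀c, ?_⟩
    intro j hj
    have hqw : qExpansion 1 (f'' - f₀) = qExpansion 1 f'' - qExpansion 1 f₀ :=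
      qExpansion_sub (qAlg_analytic ⟨_, hf''.mem_qAlg hT⟩)
        (qAlg_analytic ⟨_, hf₀c.mem_qAlg hT⟩)
    rw [hqw, map_sub, hq'', PowerSeries.coeff_map]
    rcases Nat.lt_succ_iff_lt_or_eq.mp hj with h' | h'
    · rw [hf₀r j h', map_zero, sub_zero]
    · rw [h', hf₀1, map_one, sub_self]
  apply isAlgebraic_of_finite_orbit
  -- the orbit is the image of a finite set of characters
  have hfr : (Set.range χ').Finite := by
    have h1 : (Set.range fun σ => (⟨χ' σ, hχ' σ⟩ : {χ : Γ →* ℂˣ // χ ^ n = 1})).Finite :=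
      Set.toFinite _
    have h2 := h1.image Subtype.val
    rwa [← Set.range_comp] at h2
  let G : (Γ →* ℂˣ) → ℂ := fun ψ =>
    if h : ∃ σ, χ' σ = ψ then (qExpansion 1 (f' h.choose)).coeff m else 0
  refine (hfr.image G).subset ?_
  rintro _ ⟨σ, rfl⟩
  refine ⟨χ' σ, ⟨σ, rfl⟩, ?_⟩
  have h : ∃ τ, χ' τ = χ' σ := ⟨σ, rfl⟩
  simp only [G]
  rw [dif_pos h, hkey _ _ h.choose_spec, hq' σ, PowerSeries.coeff_map]
  rfl

theorem CharForm.exists_algebraic [Γ.FiniteIndex] {hTΓ : ModularGroup.T ∈ Γ}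
    (hσ : ∀ σ : ℂ ≃+* ℂ, ConjStable Γ (σ : ℂ →+* ℂ)) {χ : Γ →* ℂˣ} {k : ℤ} {f : ℍ → ℂ}
    (hf : CharForm Γ χ k f) (hf0 : f ≠ 0) {n : ℕ} (hn : n ≠ 0) (hχ : χ ^ n = 1)
    (hT : χ ⟨ModularGroup.T, hTΓ⟩ = 1) :
    ∃ f' : ℍ → ℂ, f' ≠ 0 ∧ CharForm Γ χ k f' ∧
      ∀ m, IsAlgebraic ℚ ((qExpansion 1 f').coeff m) := by
  obtain ⟨f', h1, h2, h3, -⟩ := hf.exists_algebraic' hσ hf0 hn hχ hT
  exact ⟨f', h1, h2, h3⟩

/-- The Eisenstein series with character as a form with character. -/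
lemma charForm_eisChar {χ : Γ →* ℂˣ} {k : ℤ} (hk : 3 ≤ k) (hn : ∀ γ, ‖((χ γ : ℂˣ) : ℂ)‖ = 1)
    (hχ : ∀ γ : Γ, ((γ : SL(2, ℤ)) : Matrix (Fin 2) (Fin 2) ℤ) 1 0 = 0 → χ γ = 1) :
    CharForm Γ χ k (eisChar k χ) :=
  ⟨eisChar_mdifferentiable hk hn, eisChar_slash hχ k, eisChar_bounded hk hn⟩

lemma norm_eq_one_of_pow {χ : Γ →* ℂˣ} {n : ℕ} (hn : n ≠ 0) (hχ : χ ^ n = 1) (γ : Γ) :
    ‖((χ γ : ℂˣ) : ℂ)‖ = 1 := by
  have h1 := DFunLike.congr_fun hχ γ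
  have h2 : ((χ γ : ℂˣ) : ℂ) ^ n = 1 := by
    have := congrArg Units.val h1
    simpa using this
  exact Complex.norm_eq_one_of_pow_eq_one h2 hn

/-- **Main theorem, general version.** A character of finite order of `Γ` that is trivial on the
stabiliser of `∞` has, in every even weight `k ≥ 4`, a nonzero form with algebraic
`q`-coefficients. -/
theorem exists_algebraic_charForm_of_stable [Γ.FiniteIndex] (hTΓ : ModularGroup.T ∈ Γ)
    (hσ : ∀ σ : ℂ ≃+* ℂ, ConjStable Γ (σ : ℂ →+* ℂ)) {n : ℕ} (hn : n ≠ 0) (χ : Γ →* ℂˣ)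
    (hχ : χ ^ n = 1)
    (hinf : ∀ γ : Γ, ((γ : SL(2, ℤ)) : Matrix (Fin 2) (Fin 2) ℤ) 1 0 = 0 → χ γ = 1)
    (k : ℤ) (hk : 3 ≤ k) (hk2 : Even k) :
    ∃ f : ℍ → ℂ, f ≠ 0 ∧ CharForm Γ χ k f ∧
      ∀ m, IsAlgebraic ℚ ((qExpansion 1 f).coeff m) :=
  (charForm_eisChar hk (norm_eq_one_of_pow hn hχ) hinf).exists_algebraic (hTΓ := hTΓ) hσ
    (eisChar_ne_zero hk (Or.inl hk2) (norm_eq_one_of_pow hn hχ) hinf) hn hχ
    (hinf ⟨ModularGroup.T, hTΓ⟩ (by simp [ModularGroup.T]))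

theorem exists_algebraic_charForm_of_stable' [Γ.FiniteIndex] (hTΓ : ModularGroup.T ∈ Γ)
    (hσ : ∀ σ : ℂ ≃+* ℂ, ConjStable Γ (σ : ℂ →+* ℂ)) {n : ℕ} (hn : n ≠ 0) (χ : Γ →* ℂˣ)
    (hχ : χ ^ n = 1)
    (hinf : ∀ γ : Γ, ((γ : SL(2, ℤ)) : Matrix (Fin 2) (Fin 2) ℤ) 1 0 = 0 → χ γ = 1)
    (k : ℤ) (hk : 3 ≤ k) (hk2 : Even k) :
    ∃ f : ℍ → ℂ, f ≠ 0 ∧ CharForm Γ χ k f ∧
      (∀ m, IsAlgebraic ℚ ((qExpansion 1 f).coeff m)) ∧
      ∀ (σ : ℂ ≃+* ℂ) (f'' : ℍ → ℂ), CharForm Γ χ k f'' →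
        qExpansion 1 f'' = (qExpansion 1 f).map (σ : ℂ →+* ℂ) → f'' = f :=
  (charForm_eisChar hk (norm_eq_one_of_pow hn hχ) hinf).exists_algebraic' (hTΓ := hTΓ) hσ
    (eisChar_ne_zero hk (Or.inl hk2) (norm_eq_one_of_pow hn hχ) hinf) hn hχ
    (hinf ⟨ModularGroup.T, hTΓ⟩ (by simp [ModularGroup.T]))

/-- An element of the stabiliser of `∞` is `± T ^ j`. -/
lemma stab_infty (γ : SL(2, ℤ)) (h : (γ : Matrix (Fin 2) (Fin 2) ℤ) 1 0 = 0) :
    ∃ j : ℤ, γ = ModularGroup.T ^ j ∨ γ = -ModularGroup.T ^ j := by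
  have hdet := γ.det_coe
  rw [Matrix.det_fin_two, h, mul_zero, sub_zero] at hdet
  rcases Int.isUnit_iff.mp (IsUnit.of_mul_eq_one _ hdet) with h0 | h0
  · refine ⟨(γ : Matrix (Fin 2) (Fin 2) ℤ) 0 1, Or.inl ?_⟩
    ext i j
    rw [ModularGroup.coe_T_zpow]
    fin_cases i <;> fin_cases j
    · simpa using h0
    · rfl
    · simpa using h
    · rw [h0, one_mul] at hdet
      simpa using hdet
  · refine ⟨-(γ : Matrix (Fin 2) (Fin 2) ℤ) 0 1, Or.inr ?_⟩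
    ext i j
    rw [Matrix.SpecialLinearGroup.coe_neg, Matrix.neg_apply, ModularGroup.coe_T_zpow]
    fin_cases i <;> fin_cases j
    · simpa using h0
    · simp
    · simpa using h
    · rw [h0] at hdet
      simp only [Fin.mk_one, Fin.isValue, Matrix.of_apply, Matrix.cons_val', Matrix.cons_val_one,
        Matrix.cons_val_fin_one]
      linarith

/-- **Main theorem for `Γ₀(N)`.** A character of finite order of `Γ₀(N)` that is trivial on `T`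
and `-1` has, in every even weight `k ≥ 4`, a nonzero form with algebraic `q`-coefficients. -/
theorem exists_algebraic_charForm (N : ℕ) [NeZero N] {n : ℕ} (hn : n ≠ 0)
    (χ : Gamma0 N →* ℂˣ) (hχ : χ ^ n = 1)
    (hT : ∀ h : ModularGroup.T ∈ Gamma0 N, χ ⟨ModularGroup.T, h⟩ = 1)
    (hneg : ∀ h : (-1 : SL(2, ℤ)) ∈ Gamma0 N, χ ⟨-1, h⟩ = 1)
    (k : ℤ) (hk : 3 ≤ k) (hk2 : Even k) :
    ∃ f : ℍ → ℂ, f ≠ 0 ∧ CharForm (Gamma0 N) χ k f ∧
      ∀ m, IsAlgebraic ℚ ((qExpansion 1 f).coeff m) := by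
  have hT0 := T_mem_Gamma0 N
  have hneg0 : (-1 : SL(2, ℤ)) ∈ Gamma0 N := by
    rw [Gamma0_mem]
    simp
  refine exists_algebraic_charForm_of_stable hT0 (fun σ => conjStable_Gamma0 N _) hn χ hχ ?_
    k hk hk2
  intro γ hγ
  obtain ⟨j, hj | hj⟩ := stab_infty γ hγ
  · have : γ = (⟨ModularGroup.T, hT0⟩ : Gamma0 N) ^ j := by
      apply Subtype.ext
      rw [hj, Subgroup.coe_zpow]
    rw [this, map_zpow, hT hT0, _root_.one_zpow]
  · have : γ = ⟨-1, hneg0⟩ * (⟨ModularGroup.T, hT0⟩ : Gamma0 N) ^ j := by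
      apply Subtype.ext
      rw [hj, Subgroup.coe_mul, Subgroup.coe_zpow, neg_one_mul]
    rw [this, map_mul, map_zpow, hT hT0, hneg hneg0, _root_.one_zpow, one_mul]

end Fermat.Agent.EisChar
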