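import Fermat.Agent.IntStruct.SigmaStable
import Fermat.Agent.IntStruct.LevelOne

/-!
# Forms with character, the derivation on `q`-expansions, the bracket with `1728 Δ`
-/

set_option autoImplicit false

open UpperHalfPlane ModularForm Matrix.SpecialLinearGroup CongruenceSubgroup
open scoped MatrixGroups Manifold ModularForm Topology Derivative
open Fermat.Agent.IntStruct

noncomputable section

namespace Fermat.Agent.EisChar

/-! ### Derivative of bounded functions -/

theorem isBoundedAtImInfty_nderiv (f : ℍ → ℂ) (hf : MDiff f) (hb : IsBoundedAtImInfty f) :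
    IsBoundedAtImInfty (Derivative.normalizedDerivOfComplex f) := by
  rw [isBoundedAtImInfty_iff] at hb ⊢
  obtain ⟨M, A, hMA⟩ := hb
  refine ⟨‖(2 * Real.pi * Complex.I)⁻¹‖ * (M / 1), max A 0 + 2, fun z hz => ?_⟩
  have hA : max A 0 + 2 ≤ z.im := hz
  rw [Derivative.normalizedDerivOfComplex, norm_mul]
  refine mul_le_mul_of_nonneg_left ?_ (norm_nonneg _)
  have him : ∀ w ∈ Metric.closedBall (z : ℂ) 1, max A 0 + 1 ≤ w.im := by
    intro w hw
    have h1 : |(w - z).im| ≤ 1 := by
      refine (Complex.abs_im_le_norm _).trans ?_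
      rw [← dist_eq_norm]
      exact hw
    have h2 := (abs_le.mp h1).1
    have h3 : (w - z).im = w.im - z.im := by simp
    rw [h3] at h2
    linarith
  have hpos : ∀ w ∈ Metric.closedBall (z : ℂ) 1, 0 < w.im := fun w hw => by
    have := him w hw
    have h0 := le_max_right A 0
    linarith
  have hdiff := UpperHalfPlane.mdifferentiable_iff.mp hf
  apply Complex.norm_deriv_le_of_forall_mem_sphere_norm_le one_pos
  · refine DifferentiableOn.diffContOnCl ?_
    rw [closure_ball _ one_ne_zero]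
    exact hdiff.mono fun w hw => hpos w hw
  · intro w hw
    have hw' := Metric.sphere_subset_closedBall hw
    rw [Function.comp_apply, ofComplex_apply_of_im_pos (hpos w hw')]
    apply hMA
    have := him w hw'
    have h0 := le_max_left A 0
    change A ≤ w.im
    linarith

/-! ### The derivation on `qAlg` -/

/-- The normalised derivative as an element of `qAlg`. -/
def dQ (f : qAlg) : qAlg :=
  ⟨D (f : ℍ → ℂ), by
    refine ⟨?_, Derivative.normalizedDerivOfComplex_mdifferentiable f.2.2.1,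
      isBoundedAtImInfty_nderiv _ f.2.2.1 f.2.2.2⟩
    intro z
    have hper := f.2.1
    by_cases hz : 0 < z.im
    · have hz' : 0 < (z + 1).im := by simpa using hz
      simp only [Function.comp_apply, ofComplex_apply_of_im_pos hz,
        ofComplex_apply_of_im_pos hz', Derivative.normalizedDerivOfComplex]
      congr 1
      have h1 : ((f : ℍ → ℂ) ∘ ofComplex) = fun w => ((f : ℍ → ℂ) ∘ ofComplex) (w + 1) :=
        funext fun w => (hper w).symm
      conv_rhs => rw [h1]
      rw [deriv_comp_add_const]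
    · have hz' : (z + 1).im ≤ 0 := by simpa using hz
      simp only [Function.comp_apply, ofComplex_apply_of_im_nonpos (not_lt.mp hz),
        ofComplex_apply_of_im_nonpos hz']⟩

@[simp] lemma coe_dQ (f : qAlg) : (dQ f : ℍ → ℂ) = D (f : ℍ → ℂ) := rfl

lemma dQ_apply_eq (f : qAlg) (τ : ℍ) :
    (dQ f : ℍ → ℂ) τ = Function.Periodic.qParam 1 τ *
      deriv (cuspFunction 1 (f : ℍ → ℂ)) (Function.Periodic.qParam 1 τ) := by
  have hper : Function.Periodic ((f : ℍ → ℂ) ∘ ofComplex) ((1 : ℝ) : ℂ) := by simpa using f.2.1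
  have h1 : ((f : ℍ → ℂ) ∘ ofComplex) =ᶠ[𝓝 (τ : ℂ)]
      fun w => cuspFunction 1 (f : ℍ → ℂ) (Function.Periodic.qParam 1 w) := by
    filter_upwards [isOpen_upperHalfPlaneSet.mem_nhds τ.im_pos] with w hw
    have := eq_cuspFunction (f := (f : ℍ → ℂ)) ⟨w, hw⟩ one_ne_zero hper
    rw [Function.comp_apply, ofComplex_apply_of_im_pos hw]
    exact this.symm
  have hq : ‖Function.Periodic.qParam 1 τ‖ < 1 := Function.Periodic.norm_qParam_lt_one one_pos τ.im_pos
  have hd : DifferentiableAt ℂ (cuspFunction 1 (f : ℍ → ℂ)) (Function.Periodic.qParam 1 τ) :=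
    differentiableAt_cuspFunction one_pos hper f.2.2.1 f.2.2.2 hq
  have hq' : HasDerivAt (fun w : ℂ => Function.Periodic.qParam 1 w)
      (2 * Real.pi * Complex.I * Function.Periodic.qParam 1 τ) (τ : ℂ) := by
    have h2 : HasDerivAt (fun w : ℂ => 2 * Real.pi * Complex.I * w / ((1 : ℝ) : ℂ))
        (2 * Real.pi * Complex.I) (τ : ℂ) := by
      simpa using (hasDerivAt_id (τ : ℂ)).const_mul (2 * Real.pi * Complex.I : ℂ)
    exact h2.cexp.congr_deriv (mul_comm _ _)
  have h4 := hd.hasDerivAt.comp (τ : ℂ) hq'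
  rw [coe_dQ, Derivative.normalizedDerivOfComplex, h1.deriv_eq]
  have h5 : deriv (fun w : ℂ => cuspFunction 1 (f : ℍ → ℂ) (Function.Periodic.qParam 1 w)) τ =
    deriv (cuspFunction 1 (f : ℍ → ℂ)) (Function.Periodic.qParam 1 τ) *
      (2 * Real.pi * Complex.I * Function.Periodic.qParam 1 τ) := h4.deriv
  rw [h5]
  have : (2 * Real.pi * Complex.I : ℂ) ≠ 0 := Complex.two_pi_I_ne_zero
  field_simp

lemma hasSum_dQ (f : qAlg) (τ : ℍ) :
    HasSum (fun m : ℕ => ((m : ℂ) * (qE f).coeff m) • Function.Periodic.qParam 1 τ ^ m)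
      ((dQ f : ℍ → ℂ) τ) := by
  have hper : Function.Periodic ((f : ℍ → ℂ) ∘ ofComplex) ((1 : ℝ) : ℂ) := by simpa using f.2.1
  have hdiff := differentiableOn_cuspFunction_ball one_pos hper f.2.2.1 f.2.2.2
  have hq : ‖Function.Periodic.qParam 1 τ‖ < 1 := Function.Periodic.norm_qParam_lt_one one_pos τ.im_pos
  set q := Function.Periodic.qParam 1 τ with hqdef
  have h1 := Complex.hasSum_taylorSeries_on_ball (hdiff.deriv Metric.isOpen_ball)
    (z := q) (by simpa using hq)
  have h2 : HasSum (fun m : ℕ => (((m + 1 : ℕ) : ℂ) * (qE f).coeff (m + 1)) • q ^ m)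
      (deriv (cuspFunction 1 (f : ℍ → ℂ)) q) := by
    have e : (fun m : ℕ => (((m + 1 : ℕ) : ℂ) * (qE f).coeff (m + 1)) • q ^ m) =
        fun n : ℕ => ((n.factorial : ℂ))⁻¹ • (q - 0) ^ n •
          iteratedDeriv n (deriv (cuspFunction 1 (f : ℍ → ℂ))) 0 := by
      funext m
      rw [qE_apply, qExpansion_coeff, iteratedDeriv_succ', Nat.factorial_succ]
      simp only [sub_zero, smul_eq_mul]
      have : (((m + 1 : ℕ) : ℂ)) ≠ 0 := by exact_mod_cast Nat.succ_ne_zero m
      have h3 : ((m.factorial : ℕ) : ℂ) ≠ 0 := by exact_mod_cast Nat.factorial_ne_zero m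
      push_cast at this ⊢
      field_simp
    rw [e]
    exact h1
  have h3 := h2.mul_left q
  have h4 : HasSum (fun m : ℕ => (((m + 1 : ℕ) : ℂ) * (qE f).coeff (m + 1)) • q ^ (m + 1))
      ((dQ f : ℍ → ℂ) τ) := by
    rw [dQ_apply_eq]
    have e : (fun m : ℕ => (((m + 1 : ℕ) : ℂ) * (qE f).coeff (m + 1)) • q ^ (m + 1)) =
        fun m : ℕ => q * ((((m + 1 : ℕ) : ℂ) * (qE f).coeff (m + 1)) • q ^ m) := by
      funext m
      simp only [smul_eq_mul]
      ring
    rw [e]
    exact h3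
  have h5 := (hasSum_nat_add_iff (f := fun m : ℕ => ((m : ℂ) * (qE f).coeff m) • q ^ m) 1).mp h4
  simpa using h5

lemma coeff_unique {h : ℝ} {f : ℍ → ℂ} {c : ℕ → ℂ} (hh : 0 < h)
    (hfan : AnalyticAt ℂ (cuspFunction h f) 0)
    (hf : ∀ τ : ℍ, HasSum (fun m : ℕ => c m • Function.Periodic.qParam h τ ^ m) (f τ)) (m : ℕ) :
    (qExpansion h f).coeff m = c m := by
  have h1 := (hasFPowerSeriesOnBall_cuspFunction hh hfan hf).hasFPowerSeriesAt
  have h2 := hfan.hasFPowerSeriesAt
  have h3 := congrArg (FormalMultilinearSeries.coeff · m) (h1.eq_formalMultilinearSeries h2)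
  simp only [FormalMultilinearSeries.coeff_ofScalars] at h3
  rw [h3, qExpansion_coeff, div_eq_mul_inv, mul_comm]

lemma qE_dQ_coeff (f : qAlg) (m : ℕ) : (qE (dQ f)).coeff m = m * (qE f).coeff m :=
  coeff_unique one_pos (qAlg_analytic _) (hasSum_dQ f) m

/-- The derivation `θ` on power series. -/
def theta (p : PowerSeries ℂ) : PowerSeries ℂ := PowerSeries.mk fun m => (m : ℂ) * p.coeff m

lemma qE_dQ (f : qAlg) : qE (dQ f) = theta (qE f) := by
  ext m
  rw [qE_dQ_coeff, theta, PowerSeries.coeff_mk]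

lemma map_theta (σ : ℂ →+* ℂ) (p : PowerSeries ℂ) :
    (theta p).map σ = theta (p.map σ) := by
  ext m
  simp [theta]

/-! ### The bracket with `P = 1728 Δ` -/

/-- the form `1728 Δ` as a function -/
def P : ℍ → ℂ := Delta1728

lemma P_mdiff : MDiff P := ModularFormClass.holo Delta1728

lemma P_ne_zero (τ : ℍ) : P τ ≠ 0 := by
  rw [P, Delta1728_apply]
  exact mul_ne_zero (by norm_num) (ModularForm.discriminant_ne_zero τ)

lemma P_bdd : IsBoundedAtImInfty P := ModularFormClass.bdd_at_infty Delta1728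

lemma P_slash (γ : SL(2, ℤ)) : P ∣[(12 : ℤ)] γ = P :=
  SlashInvariantFormClass.slash_action_eq Delta1728 _ ⟨γ, rfl⟩

/-- The bracket `P F' - (w/12) F P'`. -/
def br (w : ℤ) (F : ℍ → ℂ) : ℍ → ℂ := fun z => P z * D F z - (w / 12 : ℂ) * (F z * D P z)

lemma br_mdiff (w : ℤ) {F : ℍ → ℂ} (hF : MDiff F) : MDiff (br w F) := by
  have h1 := (P_mdiff.mul (Derivative.normalizedDerivOfComplex_mdifferentiable hF))
  have h2 := (hF.mul (Derivative.normalizedDerivOfComplex_mdifferentiable P_mdiff)).const_smul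
    (w / 12 : ℂ)
  exact h1.sub h2

lemma br_bdd (w : ℤ) {F : ℍ → ℂ} (hF : MDiff F) (hb : IsBoundedAtImInfty F) :
    IsBoundedAtImInfty (br w F) := by
  have h1 := P_bdd.mul (isBoundedAtImInfty_nderiv F hF hb)
  have h2 := (hb.mul (isBoundedAtImInfty_nderiv P P_mdiff P_bdd)).smul (w / 12 : ℂ)
  exact h1.sub h2

lemma br_slash (w : ℤ) {F : ℍ → ℂ} (hF : MDiff F) (γ : SL(2, ℤ)) :
    br w F ∣[w + 14] γ = br w (F ∣[w] γ) := by
  ext z
  have hne : denom γ z ≠ 0 := denom_ne_zero γ z
  have h1 := congrFun (Derivative.normalizedDerivOfComplex_SL_slash (k := w) (γ := γ) hF) z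
  have h2 := congrFun (Derivative.normalizedDerivOfComplex_SL_slash (k := 12) (γ := γ) P_mdiff) z
  rw [P_slash] at h2
  have h3 := congrFun (P_slash γ) z
  simp only [Pi.sub_apply, SL_slash_apply] at h1 h2 h3
  simp only [br, SL_slash_apply]
  rw [h1, h2, ← h3]
  rw [show -(w + 14) = -w + -14 by ring, show -(w + 2) = -w + -2 by ring, zpow_add₀ hne,
    zpow_add₀ hne]
  rw [show (-14 : ℤ) = -12 + -2 by norm_num, show -(12 + 2 : ℤ) = -12 + -2 by norm_num,
    zpow_add₀ hne]
  push_cast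
  ring

end Fermat.Agent.EisChar
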