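import Mathlib

set_option autoImplicit false

open UpperHalfPlane ModularForm Matrix EisensteinSeries CongruenceSubgroup Complex Filter Topology
open scoped MatrixGroups Manifold

noncomputable section

namespace Fermat.Agent.EisChar

/-- Eisenstein-type series with coefficient function `ψ`. -/
def eis (k : ℤ) (ψ : (Fin 2 → ℤ) → ℂ) (z : ℍ) : ℂ := ∑' v : Fin 2 → ℤ, ψ v * eisSummand k v z

/-- The majorant. -/
def maj (k : ℤ) (z : ℍ) : ℝ := ∑' v : Fin 2 → ℤ, ‖eisSummand k v z‖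

variable {k : ℤ} {ψ : (Fin 2 → ℤ) → ℂ}

lemma norm_term_le (hψ : ∀ v, ‖ψ v‖ ≤ 1) (v : Fin 2 → ℤ) (z : ℍ) :
    ‖ψ v * eisSummand k v z‖ ≤ ‖eisSummand k v z‖ := by
  rw [norm_mul]
  exact mul_le_of_le_one_left (norm_nonneg _) (hψ v)

lemma summable_norm_term (hk : 3 ≤ k) (hψ : ∀ v, ‖ψ v‖ ≤ 1) (z : ℍ) :
    Summable fun v => ‖ψ v * eisSummand k v z‖ :=
  (summable_norm_eisSummand hk z).of_nonneg_of_le (fun _ => norm_nonneg _)
    (fun v => norm_term_le hψ v z)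

lemma summable_term (hk : 3 ≤ k) (hψ : ∀ v, ‖ψ v‖ ≤ 1) (z : ℍ) :
    Summable fun v => ψ v * eisSummand k v z :=
  (summable_norm_term hk hψ z).of_norm

lemma norm_eis_le (hk : 3 ≤ k) (hψ : ∀ v, ‖ψ v‖ ≤ 1) (z : ℍ) :
    ‖eis k ψ z‖ ≤ maj k z :=
  (norm_tsum_le_tsum_norm (summable_norm_term hk hψ z)).trans
    ((summable_norm_term hk hψ z).tsum_le_tsum (fun v => norm_term_le hψ v z)
      (summable_norm_eisSummand hk z))

/-- The equivalence `v ↦ v ᵥ* γ`. -/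
def vecMulEquiv (γ : SL(2, ℤ)) : (Fin 2 → ℤ) ≃ (Fin 2 → ℤ) where
  toFun v := v ᵥ* (γ : Matrix (Fin 2) (Fin 2) ℤ)
  invFun v := v ᵥ* ((γ⁻¹ : SL(2, ℤ)) : Matrix (Fin 2) (Fin 2) ℤ)
  left_inv v := by
    show v ᵥ* (γ : Matrix (Fin 2) (Fin 2) ℤ) ᵥ*
      ((γ⁻¹ : SL(2, ℤ)) : Matrix (Fin 2) (Fin 2) ℤ) = v
    rw [vecMul_vecMul, ← Matrix.SpecialLinearGroup.coe_mul, mul_inv_cancel,
      Matrix.SpecialLinearGroup.coe_one, vecMul_one]
  right_inv v := by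
    show v ᵥ* ((γ⁻¹ : SL(2, ℤ)) : Matrix (Fin 2) (Fin 2) ℤ) ᵥ*
      (γ : Matrix (Fin 2) (Fin 2) ℤ) = v
    rw [vecMul_vecMul, ← Matrix.SpecialLinearGroup.coe_mul, inv_mul_cancel,
      Matrix.SpecialLinearGroup.coe_one, vecMul_one]

lemma maj_smul (k : ℤ) (γ : SL(2, ℤ)) (z : ℍ) :
    maj k (γ • z) = ‖denom γ z‖ ^ k * maj k z := by
  simp_rw [maj, eisSummand_SL2_apply, norm_mul, norm_zpow, tsum_mul_left]
  congr 1
  exact (vecMulEquiv γ).tsum_eq (fun v => ‖eisSummand k v z‖)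

lemma eis_slash (k : ℤ) (ψ : (Fin 2 → ℤ) → ℂ) (γ : SL(2, ℤ)) :
    eis k ψ ∣[k] γ =
      eis k (fun v => ψ (v ᵥ* ((γ⁻¹ : SL(2, ℤ)) : Matrix (Fin 2) (Fin 2) ℤ))) := by
  ext z
  rw [SL_slash_apply, _root_.zpow_neg,
    mul_inv_eq_iff_eq_mul₀ (zpow_ne_zero _ (denom_ne_zero _ z))]
  simp_rw [eis, eisSummand_SL2_apply]
  rw [mul_comm (∑' v, _), ← tsum_mul_left, ← (vecMulEquiv γ).tsum_eq (fun v =>
    denom γ z ^ k * (ψ (v ᵥ* ((γ⁻¹ : SL(2, ℤ)) : Matrix (Fin 2) (Fin 2) ℤ)) * eisSummand k v z))]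
  refine tsum_congr fun v => ?_
  have : (vecMulEquiv γ) v ᵥ* ((γ⁻¹ : SL(2, ℤ)) : Matrix (Fin 2) (Fin 2) ℤ) = v :=
    (vecMulEquiv γ).left_inv v
  rw [this]
  have h2 : (vecMulEquiv γ) v = v ᵥ* (γ : Matrix (Fin 2) (Fin 2) ℤ) := rfl
  rw [h2]
  ring

/-! ### Boundedness -/

lemma maj_bounded (hk : 3 ≤ k) : ∃ C : ℝ, ∀ z : ℍ, 2 ≤ z.im → maj k z ≤ C := by
  refine ⟨∑' (x : Fin 2 → ℤ), r ⟨⟨1, 2⟩, Nat.ofNat_pos⟩ ^ (-k) * ‖x‖ ^ (-k), fun z hz => ?_⟩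
  obtain ⟨n, hn⟩ := (ModularGroup_T_zpow_mem_verticalStrip z (N := 1) (by norm_num))
  have hinv : maj k z = maj k ((ModularGroup.T ^ (1 * n) : SL(2, ℤ)) • z) := by
    rw [maj_smul]
    have hd : denom ((ModularGroup.T ^ (1 * n) : SL(2, ℤ)) : GL (Fin 2) ℝ) z = 1 := by
      simp [denom, ModularGroup.coe_T_zpow, -map_zpow]
    rw [hd]; simp
  rw [hinv]
  have hk' : (2 : ℝ) < k := by norm_cast
  apply (summable_norm_eisSummand hk _).tsum_le_tsum _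
  · exact_mod_cast (summable_one_div_norm_rpow hk').mul_left <| r ⟨⟨1, 2⟩, Nat.ofNat_pos⟩ ^ (-k)
  · intro x
    simp_rw [eisSummand, norm_zpow]
    exact_mod_cast
      summand_bound_of_mem_verticalStrip (lt_trans two_pos hk').le x two_pos
      (verticalStrip_anti_right _ hz (by simpa using hn))

lemma eis_isBoundedAtImInfty (hk : 3 ≤ k) (hψ : ∀ v, ‖ψ v‖ ≤ 1) :
    IsBoundedAtImInfty (eis k ψ) := by
  rw [UpperHalfPlane.isBoundedAtImInfty_iff]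
  obtain ⟨C, hC⟩ := maj_bounded (k := k) hk
  exact ⟨C, 2, fun z hz => (norm_eis_le hk hψ z).trans (hC z hz)⟩

lemma eis_mdifferentiable (hk : 3 ≤ k) (hψ : ∀ v, ‖ψ v‖ ≤ 1) :
    MDifferentiable 𝓘(ℂ) 𝓘(ℂ) (eis k ψ) := by
  have hk' : (2 : ℝ) < k := by norm_cast
  have hu : TendstoLocallyUniformly (fun (s : Finset (Fin 2 → ℤ)) ↦
      (fun z : ℍ => ∑ x ∈ s, ψ x * eisSummand k x z)) (eis k ψ) Filter.atTop := by
    have p_sum : Summable fun x : Fin 2 → ℤ ↦ ‖x‖ ^ (-k) :=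
      mod_cast (summable_one_div_norm_rpow hk')
    rw [tendstoLocallyUniformly_iff_forall_isCompact]
    intro K hK
    obtain ⟨A, B, hB, HABK⟩ := subset_verticalStrip_of_isCompact hK
    refine (tendstoUniformlyOn_tsum (hu := p_sum.mul_left <| r ⟨⟨A, B⟩, hB⟩ ^ (-k : ℝ))
      (fun p z hz ↦ ?_)).mono HABK
    refine (norm_term_le hψ p z).trans ?_
    simpa only [eisSummand, one_div, ← _root_.zpow_neg, norm_zpow, ← Real.rpow_intCast,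
      Int.cast_neg] using summand_bound_of_mem_verticalStrip (by positivity) p hB hz
  have hu2 : TendstoLocallyUniformlyOn (fun (s : Finset (Fin 2 → ℤ)) ↦
      (fun z : ℍ => ∑ x ∈ s, ψ x * eisSummand k x z) ∘ ofComplex) (eis k ψ ∘ ofComplex)
      Filter.atTop {z : ℂ | 0 < z.im} := by
    rw [← upperHalfPlaneSet, ← range_coe, ← Set.image_univ]
    apply TendstoLocallyUniformlyOn.comp (s := ⊤) _ _ _ (OpenPartialHomeomorph.continuousOn_symm _)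
    · simp only [Set.top_eq_univ, tendstoLocallyUniformlyOn_univ]
      exact hu
    · simp only [IsOpenEmbedding.toOpenPartialHomeomorph_target, Set.top_eq_univ,
        Set.mapsTo_range_iff, Set.mem_univ, forall_const]
  rw [UpperHalfPlane.mdifferentiable_iff]
  refine hu2.differentiableOn (Eventually.of_forall fun s ↦ ?_) isOpen_upperHalfPlaneSet
  have : ((fun z : ℍ => ∑ x ∈ s, ψ x * eisSummand k x z) ∘ ofComplex) =
      fun z : ℂ => ∑ x ∈ s, ψ x * (eisSummand k x ∘ ofComplex) z := rfl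
  rw [this]
  exact DifferentiableOn.fun_sum fun x _ ↦
    (eisSummand_extension_differentiableOn k x).const_mul _

/-! ### Behaviour along the imaginary axis -/

/-- The point `(n+1) i`. -/
def yp (n : ℕ) : ℍ := ⟨((n : ℝ) + 1 : ℝ) * Complex.I, by simp; positivity⟩

lemma yp_coe (n : ℕ) : ((yp n : ℍ) : ℂ) = ((n : ℝ) + 1 : ℝ) * Complex.I := rfl

lemma yp_im (n : ℕ) : (yp n).im = (n : ℝ) + 1 := by
  rw [← coe_im, yp_coe]; simp

lemma normSq_yp (n : ℕ) (v : Fin 2 → ℤ) :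
    normSq ((v 0 : ℂ) * (yp n : ℂ) + v 1) = (v 1 : ℝ) ^ 2 + ((v 0 : ℝ) * ((n : ℝ) + 1)) ^ 2 := by
  rw [yp_coe, normSq_apply]
  simp
  ring

lemma norm_yp_le (n : ℕ) (v : Fin 2 → ℤ) :
    ‖(v 0 : ℂ) * (yp 0 : ℂ) + v 1‖ ≤ ‖(v 0 : ℂ) * (yp n : ℂ) + v 1‖ := by
  rw [Complex.norm_def, Complex.norm_def, normSq_yp, normSq_yp]
  apply Real.sqrt_le_sqrt
  have h1 : ((v 0 : ℝ) * (((0 : ℕ) : ℝ) + 1)) ^ 2 ≤ ((v 0 : ℝ) * ((n : ℝ) + 1)) ^ 2 := by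
    rw [mul_pow, mul_pow]
    gcongr
    simp
  linarith

lemma norm_yp_ge (n : ℕ) (v : Fin 2 → ℤ) (hv : v 0 ≠ 0) :
    (n : ℝ) + 1 ≤ ‖(v 0 : ℂ) * (yp n : ℂ) + v 1‖ := by
  rw [Complex.norm_def, normSq_yp]
  apply Real.le_sqrt_of_sq_le
  have h1 : (1 : ℝ) ≤ (v 0 : ℝ) ^ 2 := by
    have : (1 : ℤ) ≤ (v 0) ^ 2 := by
      have := sq_nonneg (v 0)
      have h2 : (v 0) ^ 2 ≠ 0 := pow_ne_zero 2 hv
      omega
    exact_mod_cast this
  have h2 : 0 ≤ (v 1 : ℝ) ^ 2 := sq_nonneg _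
  nlinarith [sq_nonneg ((n : ℝ) + 1)]

lemma norm_eisSummand_yp_le (hk : 3 ≤ k) (n : ℕ) (v : Fin 2 → ℤ) :
    ‖eisSummand k v (yp n)‖ ≤ ‖eisSummand k v (yp 0)‖ := by
  lift k to ℕ using by omega
  simp only [eisSummand, _root_.zpow_neg, zpow_natCast]
  by_cases h0 : ‖(v 0 : ℂ) * (yp 0 : ℂ) + v 1‖ = 0
  · have hv : v = 0 := by
      by_contra hne
      have := norm_ne_zero_iff.mpr (linear_ne_zero (cd := ![(v 0 : ℝ), (v 1 : ℝ)]) (yp 0) (by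
        intro h
        apply hne
        ext i
        fin_cases i
        · have := congrFun h 0
          simpa using this
        · have := congrFun h 1
          simpa using this))
      apply this
      simpa using h0
    subst hv
    simp
  · have hpos : 0 < ‖(v 0 : ℂ) * (yp 0 : ℂ) + v 1‖ := lt_of_le_of_ne (norm_nonneg _) (Ne.symm h0)
    have h5 := norm_yp_le n v
    rw [norm_inv, norm_inv, norm_pow, norm_pow]
    exact inv_anti₀ (pow_pos hpos k) (pow_le_pow_left₀ hpos.le h5 k)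

lemma tendsto_eisSummand_yp (hk : 3 ≤ k) (v : Fin 2 → ℤ) :
    Tendsto (fun n : ℕ => eisSummand k v (yp n)) atTop
      (𝓝 (if v 0 = 0 then ((v 1 : ℂ)) ^ (-k) else 0)) := by
  split_ifs with hv
  · have : (fun n : ℕ => eisSummand k v (yp n)) = fun n => ((v 1 : ℂ)) ^ (-k) := by
      ext n
      simp [eisSummand, hv]
    rw [this]
    exact tendsto_const_nhds
  · lift k to ℕ using by omega
    rw [tendsto_zero_iff_norm_tendsto_zero]
    simp only [eisSummand, _root_.zpow_neg, zpow_natCast]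
    have hlim : Tendsto (fun n : ℕ => ((n : ℝ) + 1)⁻¹) atTop (𝓝 0) := by
      have := tendsto_one_div_add_atTop_nhds_zero_nat (𝕜 := ℝ)
      simpa using this
    refine squeeze_zero (fun n => by positivity) (fun n => ?_) hlim
    rw [norm_inv, norm_pow]
    have h1 := norm_yp_ge n v hv
    have h3 : (1 : ℝ) ≤ (n : ℝ) + 1 := by simp
    have h2 : (n : ℝ) + 1 ≤ ‖(v 0 : ℂ) * (yp n : ℂ) + v 1‖ ^ k := by
      refine h1.trans ?_
      exact le_self_pow₀ (h3.trans h1) (by omega)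
    gcongr

lemma tendsto_eis_yp (hk : 3 ≤ k) (hψ : ∀ v, ‖ψ v‖ ≤ 1) :
    Tendsto (fun n : ℕ => eis k ψ (yp n)) atTop
      (𝓝 (∑' v : Fin 2 → ℤ, ψ v * (if v 0 = 0 then ((v 1 : ℂ)) ^ (-k) else 0))) := by
  unfold eis
  refine tendsto_tsum_of_dominated_convergence (summable_norm_eisSummand hk (yp 0)) ?_ ?_
  · intro v
    exact (tendsto_eisSummand_yp hk v).const_mul _
  · refine Eventually.of_forall fun n v => ?_
    exact (norm_term_le hψ v _).trans (norm_eisSummand_yp_le hk n v)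

/-! ### The coefficient function attached to a character -/

section Char

variable {Γ : Subgroup SL(2, ℤ)} (χ : Γ →* ℂˣ)

open Classical in
/-- `ψ_χ (c, d) = χ(γ)⁻¹` for any `γ ∈ Γ` with bottom row `(c, d)`, and `0` if there is none. -/
def psi (v : Fin 2 → ℤ) : ℂ :=
  if h : ∃ γ : Γ, ((γ : SL(2, ℤ)) : Matrix (Fin 2) (Fin 2) ℤ) 1 = v then
    ((χ h.choose)⁻¹ : ℂˣ) else 0

variable {χ}

lemma bottom_row_mul_inv {γ δ : SL(2, ℤ)}
    (h : (γ : Matrix (Fin 2) (Fin 2) ℤ) 1 = (δ : Matrix (Fin 2) (Fin 2) ℤ) 1) :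
    ((γ * δ⁻¹ : SL(2, ℤ)) : Matrix (Fin 2) (Fin 2) ℤ) 1 0 = 0 := by
  rw [Matrix.SpecialLinearGroup.coe_mul, Matrix.mul_apply_eq_vecMul, h,
    ← Matrix.mul_apply_eq_vecMul, ← Matrix.SpecialLinearGroup.coe_mul, mul_inv_cancel]
  rfl

lemma psi_eq (hχ : ∀ γ : Γ, ((γ : SL(2, ℤ)) : Matrix (Fin 2) (Fin 2) ℤ) 1 0 = 0 → χ γ = 1)
    (γ : Γ) : psi χ (((γ : SL(2, ℤ)) : Matrix (Fin 2) (Fin 2) ℤ) 1) = ((χ γ)⁻¹ : ℂˣ) := by
  have h : ∃ δ : Γ, ((δ : SL(2, ℤ)) : Matrix (Fin 2) (Fin 2) ℤ) 1 =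
    ((γ : SL(2, ℤ)) : Matrix (Fin 2) (Fin 2) ℤ) 1 := ⟨γ, rfl⟩
  rw [psi, dif_pos h]
  have h1 := hχ (h.choose * γ⁻¹) (by
    rw [Subgroup.coe_mul, Subgroup.coe_inv]
    exact bottom_row_mul_inv h.choose_spec)
  rw [map_mul, map_inv, mul_inv_eq_one] at h1
  rw [h1]

lemma psi_of_not {v : Fin 2 → ℤ}
    (h : ¬ ∃ γ : Γ, ((γ : SL(2, ℤ)) : Matrix (Fin 2) (Fin 2) ℤ) 1 = v) : psi χ v = 0 := by
  rw [psi, dif_neg h]

lemma norm_psi_le (hn : ∀ γ, ‖((χ γ : ℂˣ) : ℂ)‖ = 1) (v : Fin 2 → ℤ) : ‖psi χ v‖ ≤ 1 := by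
  unfold psi
  split_ifs with h
  · rw [Units.val_inv_eq_inv_val, norm_inv, hn]; simp
  · simp

lemma psi_vecMul
    (hχ : ∀ γ : Γ, ((γ : SL(2, ℤ)) : Matrix (Fin 2) (Fin 2) ℤ) 1 0 = 0 → χ γ = 1)
    (v : Fin 2 → ℤ) (γ : Γ) :
    psi χ (v ᵥ* ((((γ : SL(2, ℤ)))⁻¹ : SL(2, ℤ)) : Matrix (Fin 2) (Fin 2) ℤ)) =
      (χ γ : ℂ) * psi χ v := by
  by_cases h : ∃ δ : Γ, ((δ : SL(2, ℤ)) : Matrix (Fin 2) (Fin 2) ℤ) 1 = v
  · obtain ⟨δ, rfl⟩ := h
    rw [psi_eq hχ δ]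
    have h2 : (((δ : SL(2, ℤ)) : Matrix (Fin 2) (Fin 2) ℤ) 1) ᵥ*
        ((((γ : SL(2, ℤ)))⁻¹ : SL(2, ℤ)) : Matrix (Fin 2) (Fin 2) ℤ) =
        (((δ * γ⁻¹ : Γ) : SL(2, ℤ)) : Matrix (Fin 2) (Fin 2) ℤ) 1 := by
      rw [Subgroup.coe_mul, Subgroup.coe_inv, Matrix.SpecialLinearGroup.coe_mul,
        Matrix.mul_apply_eq_vecMul]
    rw [h2, psi_eq hχ]
    simp
  · rw [psi_of_not h, mul_zero]
    apply psi_of_not
    rintro ⟨δ, hδ⟩
    apply h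
    refine ⟨δ * γ, ?_⟩
    rw [Subgroup.coe_mul, Matrix.SpecialLinearGroup.coe_mul, Matrix.mul_apply_eq_vecMul, hδ]
    exact (vecMulEquiv (γ : SL(2, ℤ))).right_inv v

/-- The Eisenstein series with character `χ` (trivial on the stabiliser of `∞`). -/
def eisChar (k : ℤ) (χ : Γ →* ℂˣ) : ℍ → ℂ := eis k (psi χ)

lemma eisChar_slash
    (hχ : ∀ γ : Γ, ((γ : SL(2, ℤ)) : Matrix (Fin 2) (Fin 2) ℤ) 1 0 = 0 → χ γ = 1)
    (k : ℤ) (γ : Γ) :
    eisChar k χ ∣[k] (γ : SL(2, ℤ)) = (χ γ : ℂ) • eisChar k χ := by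
  rw [eisChar, eis_slash]
  ext z
  simp only [eis, Pi.smul_apply, smul_eq_mul, psi_vecMul hχ]
  rw [← tsum_mul_left]
  exact tsum_congr fun v => by ring

lemma eisChar_bounded (hk : 3 ≤ k) (hn : ∀ γ, ‖((χ γ : ℂˣ) : ℂ)‖ = 1) (g : SL(2, ℤ)) :
    IsBoundedAtImInfty (eisChar k χ ∣[k] g) := by
  rw [eisChar, eis_slash]
  exact eis_isBoundedAtImInfty hk fun _ => norm_psi_le hn _

lemma eisChar_mdifferentiable (hk : 3 ≤ k) (hn : ∀ γ, ‖((χ γ : ℂˣ) : ℂ)‖ = 1) :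
    MDifferentiable 𝓘(ℂ) 𝓘(ℂ) (eisChar k χ) :=
  eis_mdifferentiable hk fun _ => norm_psi_le hn _

lemma tsum_psi (hk : Even k ∨ ¬ ∃ γ : Γ, ((γ : SL(2, ℤ)) : Matrix (Fin 2) (Fin 2) ℤ) 1 = ![0, -1])
    (hχ : ∀ γ : Γ, ((γ : SL(2, ℤ)) : Matrix (Fin 2) (Fin 2) ℤ) 1 0 = 0 → χ γ = 1) :
    ∑' v : Fin 2 → ℤ, psi χ v * (if v 0 = 0 then ((v 1 : ℂ)) ^ (-k) else 0) ≠ 0 := by
  have h1 : psi χ ![0, 1] = 1 := by
    have := psi_eq hχ 1
    rw [map_one, inv_one, Units.val_one] at this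
    rw [← this]
    congr 1
    ext i
    fin_cases i <;> rfl
  have h2 : psi χ ![0, -1] = 1 ∨ psi χ ![0, -1] = 0 := by
    by_cases h : ∃ γ : Γ, ((γ : SL(2, ℤ)) : Matrix (Fin 2) (Fin 2) ℤ) 1 = ![0, -1]
    · left
      obtain ⟨γ, hγ⟩ := h
      have := psi_eq hχ γ
      rw [hχ γ (by rw [hγ]; rfl), inv_one, Units.val_one, hγ] at this
      exact this
    · exact Or.inr (psi_of_not h)
  have hs : ∀ v ∉ ({![0, 1], ![0, -1]} : Finset (Fin 2 → ℤ)),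
      psi χ v * (if v 0 = 0 then ((v 1 : ℂ)) ^ (-k) else 0) = 0 := by
    intro v hv
    split_ifs with h0
    · rw [psi_of_not, zero_mul]
      rintro ⟨γ, hγ⟩
      have hdet := (γ : SL(2, ℤ)).det_coe
      rw [Matrix.det_fin_two, hγ, h0] at hdet
      have hu : IsUnit (v 1) := by
        refine IsUnit.of_mul_eq_one (((γ : SL(2, ℤ)) : Matrix (Fin 2) (Fin 2) ℤ) 0 0) ?_
        linarith
      rcases Int.isUnit_iff.mp hu with h | h
      · apply hv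
        simp only [Finset.mem_insert, Finset.mem_singleton]
        left
        ext i
        fin_cases i
        · simpa using h0
        · simpa using h
      · apply hv
        simp only [Finset.mem_insert, Finset.mem_singleton]
        right
        ext i
        fin_cases i
        · simpa using h0
        · simpa using h
    · rw [mul_zero]
  rw [tsum_eq_sum hs, Finset.sum_pair (by
    intro h
    have := congrFun h 1
    simp at this)]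
  rw [h1]
  rcases hk with hk | hk
  · have hk2 : ((-1 : ℂ)) ^ (-k) = 1 := by
      rw [Even.neg_zpow hk.neg, _root_.one_zpow]
    rcases h2 with h2 | h2 <;> rw [h2] <;> simp [hk2]
  · rw [psi_of_not hk]
    simp

/-- The Eisenstein series with character is not identically zero. -/
lemma eisChar_ne_zero (hk : 3 ≤ k)
    (hk2 : Even k ∨ ¬ ∃ γ : Γ, ((γ : SL(2, ℤ)) : Matrix (Fin 2) (Fin 2) ℤ) 1 = ![0, -1])
    (hn : ∀ γ, ‖((χ γ : ℂˣ) : ℂ)‖ = 1)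
    (hχ : ∀ γ : Γ, ((γ : SL(2, ℤ)) : Matrix (Fin 2) (Fin 2) ℤ) 1 0 = 0 → χ γ = 1) :
    eisChar k χ ≠ 0 := by
  intro h
  have h1 := tendsto_eis_yp (k := k) (ψ := psi χ) hk (fun _ => norm_psi_le hn _)
  have h0 := tsum_psi hk2 hχ
  have h2 : (fun n : ℕ => eis k (psi χ) (yp n)) = fun _ => 0 := by
    ext n
    exact congrFun h (yp n)
  rw [h2] at h1
  exact h0 (tendsto_nhds_unique h1 tendsto_const_nhds)

end Char

end Fermat.Agent.EisChar
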